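import Fermat.Agent.LT.T3.Push.Sym
import Fermat.Agent.LT.T3.R.H134.AbelReal
import Fermat.Agent.LT.T6.H680.ArchConvSpec

/-!
# Row LT, tower T3, station T3.19 (architect helper14): THE ABEL TRANSFORM OF A CONVOLUTION
# (complex place, vocabulary of tower T3)

OFF-MAIN.  Complete proofs, nothing assumed.  ADDITIVE (new names only, namespace `T3.Push`).

    abelConvM_of : T6.H680.AbelConvCC680 → T6.H680.ConvTestCC680 → AbelConvMC

`AbelConvMC`: for every Haar measure `μc` of `GL₂(ℂ)` there is `κ ≠ 0` such that for smooth test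
functions `F`, `G` of tower T3 (`IsCplxTest`, `IsCplxSmooth`) with `HasAbelN F β`, `HasAbelN G γ`:
`T6.convInt μc F G` is a smooth test function and

    HasAbelN (T6.convInt μc F G) (κ · convE β γ).

So the iterated convolutions `H305.convL305 μc Φ j` of the matched archimedean components have
the Abel transforms `κ^j · convLE β j` (`Push/AbelConvClosed.lean`): the infinite local factors
of the pushed family of `pushTel` / `ekPushM`.

Proof.  The two leaves of helper680 (station T6.20x, closed) are stated in the coordinates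
`b(ζ, r, w) = e^{ζ/2} [[e^{r/2}, e^{r/2} w], [0, e^{-r/2}]]`:
`N(φ)(ζ, r) = ∫ φ(b(ζ, r, w)) dw`.  For a bi-`U(2)`-invariant `F`:

    HasAbelN F β  ⟺  N(F)(ζ, r) = e^{-r} β((ζ + r)/2, (ζ - r)/2)   for all ζ, r

(`y = e^{(ζ+r)/2} w`; the rotation of `ℂ` by `c₁ / |c₁|`).  The character `e^{-r}` is
multiplicative, and `u ↦ ((ζ + r)/2, (ζ - r)/2)` is a linear automorphism of `ℝ²`, which
multiplies the Lebesgue measure by a constant `c > 0`: `κ = κ₆₈₀ c`.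
-/

set_option autoImplicit false
set_option linter.style.haveILetI false
set_option linter.unusedVariables false

open MeasureTheory

noncomputable section

namespace Fermat.Agent.LT.T3.Push

open Fermat.Agent.LT.T3.AS Fermat.Agent.LT.T6 Fermat.Agent.LT.T6.H680

/-! ## 1. Test functions of T6 and of T3 -/

/-- An archimedean test function of tower T6 on `GL₂(ℂ)` is a smooth test function of tower
T3. -/
theorem isCplxTest_of_arch {φ : GL (Fin 2) ℂ → ℂ} (h : IsArchTestC φ) :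
    IsCplxTest φ ∧ IsCplxSmooth φ := by
  refine ⟨⟨h.cont, h.supp, fun k k' g hk hk' => ?_⟩, fun n f hf => ?_⟩
  · rw [h.right k' (k * g) hk', h.left k g hk]
  · have := h.smooth n f hf 1
    simpa using this

/-! ## 2. The two coordinates of the `N`-integral -/

/-- The linear automorphism `(ζ, r) ↦ ((ζ + r)/2, (ζ - r)/2)` of `ℝ²`. -/
def halfL : (ℝ × ℝ) ≃ₗ[ℝ] (ℝ × ℝ) where
  toFun u := ((u.1 + u.2) / 2, (u.1 - u.2) / 2)
  map_add' u v := by
    ext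
    · show (u.1 + v.1 + (u.2 + v.2)) / 2 = (u.1 + u.2) / 2 + (v.1 + v.2) / 2
      ring
    · show (u.1 + v.1 - (u.2 + v.2)) / 2 = (u.1 - u.2) / 2 + (v.1 - v.2) / 2
      ring
  map_smul' c u := by
    ext
    · show (c * u.1 + c * u.2) / 2 = c * ((u.1 + u.2) / 2)
      ring
    · show (c * u.1 - c * u.2) / 2 = c * ((u.1 - u.2) / 2)
      ring
  invFun y := (y.1 + y.2, y.1 - y.2)
  left_inv u := by
    ext
    · show (u.1 + u.2) / 2 + (u.1 - u.2) / 2 = u.1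
      ring
    · show (u.1 + u.2) / 2 - (u.1 - u.2) / 2 = u.2
      ring
  right_inv y := by
    ext
    · show (y.1 + y.2 + (y.1 - y.2)) / 2 = y.1
      ring
    · show (y.1 + y.2 - (y.1 - y.2)) / 2 = y.2
      ring

theorem halfL_apply (u : ℝ × ℝ) : halfL u = ((u.1 + u.2) / 2, (u.1 - u.2) / 2) := rfl

/-- A linear automorphism of `ℝ²` multiplies the Lebesgue integral by a positive constant. -/
theorem exists_const_halfL :
    ∃ c : ℝ, 0 < c ∧ ∀ h : ℝ × ℝ → ℂ,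
      ∫ u : ℝ × ℝ, h (halfL u) = (c : ℂ) * ∫ y : ℝ × ℝ, h y := by
  have hdet : LinearMap.det (halfL : (ℝ × ℝ) →ₗ[ℝ] (ℝ × ℝ)) ≠ 0 :=
    (LinearEquiv.isUnit_det' halfL).ne_zero
  have hmap := Measure.map_linearMap_addHaar_eq_smul_addHaar (volume : Measure (ℝ × ℝ)) hdet
  refine ⟨|(LinearMap.det (halfL : (ℝ × ℝ) →ₗ[ℝ] (ℝ × ℝ)))⁻¹|,
    abs_pos.2 (inv_ne_zero hdet), fun h => ?_⟩
  let e : (ℝ × ℝ) ≃ᵐ (ℝ × ℝ) := (halfL.toContinuousLinearEquiv).toHomeomorph.toMeasurableEquiv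
  have h1 : ∫ u : ℝ × ℝ, h (halfL u) = ∫ y, h y ∂(Measure.map e volume) :=
    (integral_map_equiv e h).symm
  have h2 : Measure.map e (volume : Measure (ℝ × ℝ))
      = Measure.map (halfL : (ℝ × ℝ) →ₗ[ℝ] (ℝ × ℝ)) volume := rfl
  rw [h1, h2, hmap, integral_smul_measure, ENNReal.toReal_ofReal (abs_nonneg _)]
  rw [Complex.real_smul]

/-- The upper triangular element `b(ζ, r, w)` of tower T6 in the coordinates of tower T3. -/
theorem bC_eq_upperGL (ζ r : ℝ) (w : ℂ) (c₁ c₂ : ℂˣ)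
    (h1 : (c₁ : ℂ) = ((Real.exp ((ζ + r) / 2) : ℝ) : ℂ))
    (h2 : (c₂ : ℂ) = ((Real.exp ((ζ - r) / 2) : ℝ) : ℂ)) :
    H830.bC ζ r w = upperGL c₁ c₂ ((Real.exp ((ζ + r) / 2) : ℝ) • w) := by
  apply Units.ext
  show (!![((Real.exp ((ζ + r) / 2) : ℝ) : ℂ), ((Real.exp ((ζ + r) / 2) : ℝ) : ℂ) * w;
      0, ((Real.exp ((ζ - r) / 2) : ℝ) : ℂ)] : Matrix (Fin 2) (Fin 2) ℂ)
    = !![(c₁ : ℂ), (Real.exp ((ζ + r) / 2) : ℝ) • w; 0, (c₂ : ℂ)]
  rw [h1, h2, Complex.real_smul]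

/-- The `N`-integral of tower T6 in terms of the `N`-integral of tower T3. -/
theorem nIntC_eq (F : GL (Fin 2) ℂ → ℂ) (ζ r : ℝ) (c₁ c₂ : ℂˣ)
    (h1 : (c₁ : ℂ) = ((Real.exp ((ζ + r) / 2) : ℝ) : ℂ))
    (h2 : (c₂ : ℂ) = ((Real.exp ((ζ - r) / 2) : ℝ) : ℂ)) :
    nIntC680 F (ζ, r)
      = ((Real.exp (-(ζ + r)) : ℝ) : ℂ) * ∫ x : ℂ, F (upperGL c₁ c₂ x) := by
  unfold nIntC680
  have e : (fun w : ℂ => F (H830.bC ζ r w))
      = fun w : ℂ => F (upperGL c₁ c₂ ((Real.exp ((ζ + r) / 2) : ℝ) • w)) := by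
    funext w
    rw [bC_eq_upperGL ζ r w c₁ c₂ h1 h2]
  show ∫ w : ℂ, F (H830.bC ζ r w) = _
  rw [e, Measure.integral_comp_smul (volume : Measure ℂ) (fun z : ℂ => F (upperGL c₁ c₂ z))
    (Real.exp ((ζ + r) / 2)), Complex.finrank_real_complex, Complex.real_smul]
  congr 2
  rw [abs_of_pos (inv_pos.2 (pow_pos (Real.exp_pos _) 2)), ← Real.exp_nat_mul, ← Real.exp_neg]
  congr 1
  push_cast
  ring

/-- `HasAbelN F β` in the coordinates of tower T6. -/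
theorem nIntC_of_hasAbelN {F : GL (Fin 2) ℂ → ℂ} {β : ℝ × ℝ → ℂ} (hF : HasAbelN F β)
    (u : ℝ × ℝ) :
    nIntC680 F u = ((Real.exp (-u.2) : ℝ) : ℂ) * β (halfL u) := by
  obtain ⟨ζ, r⟩ := u
  have ha : ((Real.exp ((ζ + r) / 2) : ℝ) : ℂ) ≠ 0 :=
    Complex.ofReal_ne_zero.2 (Real.exp_ne_zero _)
  have hb : ((Real.exp ((ζ - r) / 2) : ℝ) : ℂ) ≠ 0 :=
    Complex.ofReal_ne_zero.2 (Real.exp_ne_zero _)
  have hN := hF (Units.mk0 _ ha) (Units.mk0 _ hb)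
  have hna : ‖((Units.mk0 _ ha : ℂˣ) : ℂ)‖ = Real.exp ((ζ + r) / 2) := by
    show ‖((Real.exp ((ζ + r) / 2) : ℝ) : ℂ)‖ = _
    rw [Complex.norm_real, Real.norm_of_nonneg (Real.exp_pos _).le]
  have hnb : ‖((Units.mk0 _ hb : ℂˣ) : ℂ)‖ = Real.exp ((ζ - r) / 2) := by
    show ‖((Real.exp ((ζ - r) / 2) : ℝ) : ℂ)‖ = _
    rw [Complex.norm_real, Real.norm_of_nonneg (Real.exp_pos _).le]
  rw [hna, hnb, Real.log_exp, Real.log_exp] at hN
  rw [nIntC_eq F ζ r (Units.mk0 _ ha) (Units.mk0 _ hb) rfl rfl, hN, halfL_apply, ← mul_assoc]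
  congr 1
  rw [← Complex.ofReal_mul, ← Real.exp_add, ← Real.exp_add]
  congr 2
  ring

/-- The diagonal unitary element. -/
theorem inU2_diag (u₁ u₂ : ℂˣ) (h1 : ‖(u₁ : ℂ)‖ = 1) (h2 : ‖(u₂ : ℂ)‖ = 1) :
    InU2 (upperGL u₁ u₂ 0) := by
  unfold InU2
  have e1 : (u₁ : ℂ) * (starRingEnd ℂ) (u₁ : ℂ) = 1 := by
    rw [Complex.mul_conj, Complex.normSq_eq_norm_sq, h1]; simp
  have e2 : (u₂ : ℂ) * (starRingEnd ℂ) (u₂ : ℂ) = 1 := by
    rw [Complex.mul_conj, Complex.normSq_eq_norm_sq, h2]; simp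
  show (!![(u₁ : ℂ), 0; 0, (u₂ : ℂ)] : Matrix (Fin 2) (Fin 2) ℂ)
    * (!![(u₁ : ℂ), 0; 0, (u₂ : ℂ)] : Matrix (Fin 2) (Fin 2) ℂ).conjTranspose = 1
  ext i j
  fin_cases i <;> fin_cases j <;>
    simp [Matrix.mul_apply, Fin.sum_univ_two, Matrix.conjTranspose_apply, e1, e2]

theorem upperGL_mul_diag (u₁ u₂ a b : ℂˣ) (y : ℂ) :
    upperGL u₁ u₂ 0 * upperGL a b y = upperGL (u₁ * a) (u₂ * b) ((u₁ : ℂ) * y) := by
  apply Units.ext
  show (!![(u₁ : ℂ), 0; 0, (u₂ : ℂ)] : Matrix (Fin 2) (Fin 2) ℂ) * !![(a : ℂ), y; 0, (b : ℂ)]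
    = !![((u₁ * a : ℂˣ) : ℂ), (u₁ : ℂ) * y; 0, ((u₂ * b : ℂˣ) : ℂ)]
  ext i j
  fin_cases i <;> fin_cases j <;> simp [Matrix.mul_apply, Fin.sum_univ_two]

/-- The rotations of `ℂ` preserve the Lebesgue integral. -/
theorem integral_rot (g : ℂ → ℂ) (u : ℂ) (hu : ‖u‖ = 1) :
    ∫ x : ℂ, g (u * x) = ∫ x : ℂ, g x := by
  have hc : u ∈ Submonoid.unitSphere ℂ := by
    rw [Submonoid.unitSphere, Submonoid.mem_mk, Subsemigroup.mem_mk, mem_sphere_zero_iff_norm]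
    exact hu
  obtain ⟨a, ha⟩ : ∃ a : Circle, (a : ℂ) = u :=
    ⟨(⟨u, hc⟩ : Submonoid.unitSphere ℂ), rfl⟩
  have h := (rotation a).measurePreserving.integral_comp
    (rotation a).toHomeomorph.measurableEmbedding g
  have e : (fun x : ℂ => g (u * x)) = fun x : ℂ => g ((rotation a) x) := by
    funext x
    rw [rotation_apply, ha]
  rw [e]
  exact h

/-- `HasAbelN` from the coordinates of tower T6, for a left `U(2)`-invariant function. -/
theorem hasAbelN_of_nIntC {F : GL (Fin 2) ℂ → ℂ} {β : ℝ × ℝ → ℂ}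
    (hl : ∀ k g : GL (Fin 2) ℂ, InU2 k → F (k * g) = F g)
    (hN : ∀ u : ℝ × ℝ, nIntC680 F u = ((Real.exp (-u.2) : ℝ) : ℂ) * β (halfL u)) :
    HasAbelN F β := by
  intro c₁ c₂
  have hc1 : (0 : ℝ) < ‖(c₁ : ℂ)‖ := norm_pos_iff.2 c₁.ne_zero
  have hc2 : (0 : ℝ) < ‖(c₂ : ℂ)‖ := norm_pos_iff.2 c₂.ne_zero
  set a : ℝ := ‖(c₁ : ℂ)‖ with ha
  set b : ℝ := ‖(c₂ : ℂ)‖ with hb
  have ha0 : ((a : ℝ) : ℂ) ≠ 0 := Complex.ofReal_ne_zero.2 hc1.ne'
  have hb0 : ((b : ℝ) : ℂ) ≠ 0 := Complex.ofReal_ne_zero.2 hc2.ne'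
  -- the polar decomposition of `c₁`, `c₂`
  let A : ℂˣ := Units.mk0 _ ha0
  let B : ℂˣ := Units.mk0 _ hb0
  let u₁ : ℂˣ := c₁ * A⁻¹
  let u₂ : ℂˣ := c₂ * B⁻¹
  have hu1 : ‖(u₁ : ℂ)‖ = 1 := by
    show ‖(c₁ : ℂ) * ((A⁻¹ : ℂˣ) : ℂ)‖ = 1
    rw [Units.val_inv_eq_inv_val, norm_mul, norm_inv]
    show ‖(c₁ : ℂ)‖ * ‖((a : ℝ) : ℂ)‖⁻¹ = 1
    rw [Complex.norm_real, Real.norm_of_nonneg hc1.le]
    exact mul_inv_cancel₀ hc1.ne'
  have hu2 : ‖(u₂ : ℂ)‖ = 1 := by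
    show ‖(c₂ : ℂ) * ((B⁻¹ : ℂˣ) : ℂ)‖ = 1
    rw [Units.val_inv_eq_inv_val, norm_mul, norm_inv]
    show ‖(c₂ : ℂ)‖ * ‖((b : ℝ) : ℂ)‖⁻¹ = 1
    rw [Complex.norm_real, Real.norm_of_nonneg hc2.le]
    exact mul_inv_cancel₀ hc2.ne'
  have hc1' : u₁ * A = c₁ := by simp [u₁]
  have hc2' : u₂ * B = c₂ := by simp [u₂]
  -- left invariance
  have e1 : ∀ x : ℂ, F (upperGL c₁ c₂ ((u₁ : ℂ) * x)) = F (upperGL A B x) := by
    intro x
    rw [← hl (upperGL u₁ u₂ 0) (upperGL A B x) (inU2_diag u₁ u₂ hu1 hu2),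
      upperGL_mul_diag, hc1', hc2']
  have e2 : ∫ x : ℂ, F (upperGL c₁ c₂ x) = ∫ x : ℂ, F (upperGL A B x) := by
    rw [← integral_rot (fun x => F (upperGL c₁ c₂ x)) (u₁ : ℂ) hu1]
    exact integral_congr_ae (Filter.Eventually.of_forall e1)
  -- the coordinates
  set ζ : ℝ := Real.log a + Real.log b with hζ
  set r : ℝ := Real.log a - Real.log b with hr
  have h1 : (ζ + r) / 2 = Real.log a := by rw [hζ, hr]; ring
  have h2 : (ζ - r) / 2 = Real.log b := by rw [hζ, hr]; ring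
  have hA : (A : ℂ) = ((Real.exp ((ζ + r) / 2) : ℝ) : ℂ) := by
    rw [h1, Real.exp_log hc1]
    rfl
  have hB : (B : ℂ) = ((Real.exp ((ζ - r) / 2) : ℝ) : ℂ) := by
    rw [h2, Real.exp_log hc2]
    rfl
  have h3 := nIntC_eq F ζ r A B hA hB
  rw [hN (ζ, r), halfL_apply] at h3
  simp only [h1, h2] at h3
  rw [e2]
  have hexp : ((Real.exp (-(ζ + r)) : ℝ) : ℂ) ≠ 0 :=
    Complex.ofReal_ne_zero.2 (Real.exp_ne_zero _)
  have h4 : ∫ x : ℂ, F (upperGL A B x)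
      = (((Real.exp (-(ζ + r)) : ℝ) : ℂ))⁻¹ * (((Real.exp (-r) : ℝ) : ℂ)
          * β (Real.log a, Real.log b)) := by
    rw [h3]
    field_simp
  rw [h4, ← mul_assoc]
  congr 1
  rw [← Complex.ofReal_inv, ← Complex.ofReal_mul, ← Real.exp_neg, ← Real.exp_add]
  congr 1
  have : -(-(ζ + r)) + -r = Real.log a + Real.log b := by rw [hζ, hr]; ring
  rw [this, Real.exp_add, Real.exp_log hc1, Real.exp_log hc2]

/-! ## 3. The Abel transform of a convolution -/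

/-- **THE ABEL TRANSFORM OF A CONVOLUTION (complex place, T3 vocabulary).**  For every Haar
measure `μc` of `GL₂(ℂ)` there is `κ ≠ 0`: the convolution of two smooth test functions is a
smooth test function, and its `N`-integral is `κ` times the convolution on `ℝ²` of the
`N`-integrals. -/
def AbelConvMC : Prop :=
  ∀ μc : @Measure (GL (Fin 2) ℂ) (borel _), @Measure.IsHaarMeasure _ _ _ (borel _) μc →
    ∃ κ : ℂ, κ ≠ 0 ∧
      ∀ (F G : GL (Fin 2) ℂ → ℂ) (β γ : ℝ × ℝ → ℂ),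
        IsCplxTest F → IsCplxSmooth F → IsCplxTest G → IsCplxSmooth G →
        HasAbelN F β → HasAbelN G γ →
        IsCplxTest (@convInt _ _ (borel _) μc F G) ∧
          IsCplxSmooth (@convInt _ _ (borel _) μc F G) ∧
          HasAbelN (@convInt _ _ (borel _) μc F G) (fun y => κ * convE β γ y)

/-- The Abel transform of a convolution from the two leaves of station T6.20x (helper680). -/
theorem abelConvM_of (h1 : AbelConvCC680) (h2 : ConvTestCC680) : AbelConvMC := by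
  intro μc hμc
  obtain ⟨κ, hκ, hconv⟩ := h1 μc hμc
  obtain ⟨c, hc, hL⟩ := exists_const_halfL
  refine ⟨(κ : ℂ) * (c : ℂ), mul_ne_zero (Complex.ofReal_ne_zero.2 hκ.ne')
    (Complex.ofReal_ne_zero.2 hc.ne'), fun F G β γ hF hFs hG hGs hNF hNG => ?_⟩
  have hF6 : IsArchTestC F := R.H134.isArchTestC_of134 hF hFs
  have hG6 : IsArchTestC G := R.H134.isArchTestC_of134 hG hGs
  have hT := h2 μc hμc F G hF6 hG6
  have hT3 := isCplxTest_of_arch hT
  refine ⟨hT3.1, hT3.2, ?_⟩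
  refine hasAbelN_of_nIntC hT.left fun v => ?_
  have h3 := hconv F G hF6 hG6 v
  have e : (fun u : ℝ × ℝ => nIntC680 F u * nIntC680 G (v - u))
      = fun u : ℝ × ℝ => ((Real.exp (-v.2) : ℝ) : ℂ)
          * (fun y : ℝ × ℝ => β y * γ (halfL v - y)) (halfL u) := by
    funext u
    rw [nIntC_of_hasAbelN hNF u, nIntC_of_hasAbelN hNG (v - u), map_sub]
    have : ((Real.exp (-v.2) : ℝ) : ℂ)
        = ((Real.exp (-u.2) : ℝ) : ℂ) * ((Real.exp (-(v - u).2) : ℝ) : ℂ) := by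
      rw [← Complex.ofReal_mul, ← Real.exp_add]
      congr 2
      show -v.2 = -u.2 + -(v.2 - u.2)
      ring
    rw [this]
    ring
  have hL' := hL (fun y : ℝ × ℝ => β y * γ (halfL v - y))
  have h5 : ∫ u : ℝ × ℝ, nIntC680 F u * nIntC680 G (v - u)
      = ((Real.exp (-v.2) : ℝ) : ℂ) * ((c : ℂ) * ∫ y : ℝ × ℝ, β y * γ (halfL v - y)) := by
    rw [e, integral_const_mul]
    congr 1
  show nIntC680 (convC680 μc F G) v = _
  rw [h3, h5]
  unfold convE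
  ring

/-! ## Appendix: the equation lemmas of the definitions of this file are realised HERE -/

theorem eqns_realised_pushAbelConv : True := by
  have _a1 := @halfL.eq_1
  have _a2 := @AbelConvMC.eq_1
  trivial

end Fermat.Agent.LT.T3.Push

end
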