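import Fermat.Agent.LT.T3.Push.AbelConv
import Fermat.Agent.LT.T6.H323.AbelConvC
import Fermat.Agent.LT.T6.H323.Conv.TestC

/-!
# Row LT, tower T3, station T3.19 (architect helper14): THE ABEL TRANSFORM OF A CONVOLUTION,
# CLOSED, AND OF THE ITERATED CONVOLUTIONS

OFF-MAIN.  Complete proofs, nothing assumed.  ADDITIVE (new names only, namespace `T3.Push`).

    abelConvM_c : AbelConvMC                                    (UNCONDITIONAL)
    abelConvL_c : AbelConvLC                                    (UNCONDITIONAL)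

`abelConvM_c`: `Push/AbelConv.lean` with the two leaves of station T6.20x closed by helper323
(`T6/H323/AbelConvC.lean`, `T6/H323/Conv/TestC.lean`; vendored byte-identical).

`AbelConvLC`: for every Haar measure `μc` of `GL₂(ℂ)` there is `κ ≠ 0` such that for every
sequence `Φ j` of smooth test functions of tower T3 with `HasAbelN (Φ j) (β j)`: the left nested
iterated convolutions `convLI μc Φ j = Φ 0 ⋆ Φ 1 ⋆ ⋯ ⋆ Φ j` (the recursion of `H305.convL305`)
are smooth test functions and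

    HasAbelN (convLI μc Φ j) (κ^j · convLE β j).

These are the infinite local factors downstairs of the matched pairs of tower T7 (`LocHyp305`:
`F v = convL305 μc (fun j => Φ (w j)) (l - 1)`), in the shape of `pushTel` / `ekPushM`
(`sβ v = κ^{k-1}`, `β_v = convLE (β'_{w j}) (k - 1)`).
-/

set_option autoImplicit false
set_option linter.style.haveILetI false
set_option linter.unusedVariables false

open MeasureTheory

noncomputable section

namespace Fermat.Agent.LT.T3.Push

open Fermat.Agent.LT.T3.AS Fermat.Agent.LT.T6 Fermat.Agent.LT.T6.H680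

/-- **THE ABEL TRANSFORM OF A CONVOLUTION (complex place, T3 vocabulary), UNCONDITIONAL.** -/
theorem abelConvM_c : AbelConvMC :=
  abelConvM_of H323.abelConvCC323 H323.convTestCC323

/-- Left nested iterated convolution on `GL₂(ℂ)`: `Φ 0 ⋆ Φ 1 ⋆ ⋯ ⋆ Φ j` (the recursion of
`H305.convL305`). -/
def convLI (μc : @Measure (GL (Fin 2) ℂ) (borel _)) (Φ : ℕ → GL (Fin 2) ℂ → ℂ) :
    ℕ → GL (Fin 2) ℂ → ℂ
  | 0 => Φ 0
  | (j + 1) => @convInt _ _ (borel _) μc (convLI μc Φ j) (Φ (j + 1))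

theorem convLI_zero (μc : @Measure (GL (Fin 2) ℂ) (borel _)) (Φ : ℕ → GL (Fin 2) ℂ → ℂ) :
    convLI μc Φ 0 = Φ 0 := rfl

theorem convLI_succ (μc : @Measure (GL (Fin 2) ℂ) (borel _)) (Φ : ℕ → GL (Fin 2) ℂ → ℂ)
    (j : ℕ) :
    convLI μc Φ (j + 1) = @convInt _ _ (borel _) μc (convLI μc Φ j) (Φ (j + 1)) := rfl

theorem convLE_zero (b : ℕ → ℝ × ℝ → ℂ) : convLE b 0 = b 0 := rfl

theorem convLE_succ (b : ℕ → ℝ × ℝ → ℂ) (j : ℕ) :
    convLE b (j + 1) = convE (convLE b j) (b (j + 1)) := rfl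

/-- Constants come out of the first factor of a convolution. -/
theorem convE_const_mul (c : ℂ) (β γ : ℝ × ℝ → ℂ) (y : ℝ × ℝ) :
    convE (fun u => c * β u) γ y = c * convE β γ y := by
  unfold convE
  rw [← integral_const_mul]
  congr 1
  funext u
  ring

/-- `HasAbelN` depends only on the values of the second argument. -/
theorem hasAbelN_congr {F : GL (Fin 2) ℂ → ℂ} {β β' : ℝ × ℝ → ℂ} (h : ∀ y, β y = β' y)
    (hF : HasAbelN F β) : HasAbelN F β' := by
  intro c₁ c₂
  rw [hF c₁ c₂, h]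

/-- **THE ABEL TRANSFORM OF THE ITERATED CONVOLUTIONS (complex place, T3 vocabulary).** -/
def AbelConvLC : Prop :=
  ∀ μc : @Measure (GL (Fin 2) ℂ) (borel _), @Measure.IsHaarMeasure _ _ _ (borel _) μc →
    ∃ κ : ℂ, κ ≠ 0 ∧
      ∀ (Φ : ℕ → GL (Fin 2) ℂ → ℂ) (β : ℕ → ℝ × ℝ → ℂ),
        (∀ j, IsCplxTest (Φ j) ∧ IsCplxSmooth (Φ j) ∧ HasAbelN (Φ j) (β j)) →
        ∀ j, IsCplxTest (convLI μc Φ j) ∧ IsCplxSmooth (convLI μc Φ j) ∧
          HasAbelN (convLI μc Φ j) (fun y => κ ^ j * convLE β j y)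

/-- The iterated form from the binary form. -/
theorem abelConvL_of (h : AbelConvMC) : AbelConvLC := by
  intro μc hμc
  obtain ⟨κ, hκ, hconv⟩ := h μc hμc
  refine ⟨κ, hκ, fun Φ β hΦ j => ?_⟩
  induction j with
  | zero =>
    refine ⟨(hΦ 0).1, (hΦ 0).2.1, hasAbelN_congr (fun y => ?_) (hΦ 0).2.2⟩
    rw [pow_zero, one_mul, convLE_zero]
  | succ j ih =>
    obtain ⟨h1, h2, h3⟩ := hconv (convLI μc Φ j) (Φ (j + 1)) (fun y => κ ^ j * convLE β j y)
      (β (j + 1)) ih.1 ih.2.1 (hΦ (j + 1)).1 (hΦ (j + 1)).2.1 ih.2.2 (hΦ (j + 1)).2.2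
    refine ⟨h1, h2, hasAbelN_congr (fun y => ?_) h3⟩
    rw [convE_const_mul, convLE_succ, pow_succ]
    ring

/-- **THE ABEL TRANSFORM OF THE ITERATED CONVOLUTIONS, UNCONDITIONAL.** -/
theorem abelConvL_c : AbelConvLC :=
  abelConvL_of abelConvM_c

/-! ## Appendix: the equation lemmas of the definitions of this file are realised HERE -/

theorem eqns_realised_pushAbelConvClosed : True := by
  have _a1 := @convLI.eq_1
  have _a2 := @convLI.eq_2
  have _a3 := @convLI.eq_def
  have _a4 := @AbelConvLC.eq_1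
  trivial

end Fermat.Agent.LT.T3.Push

end
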