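import Fermat.Agent.LT.T3.Push.AbelConvClosed
import Fermat.Agent.LT.T7.H910.DownArchCut

/-!
# Row LT, tower T7, leaf DA.1 `H910.BinAbelC910` of the cut of helper910 of `B981.DownArchC981`
# (row 3044), PROVED VERBATIM, UNCONDITIONAL (helper14, station T3.19)

OFF-MAIN.  Complete proofs, nothing assumed.  ADDITIVE (new names only, namespace `T3.Push`).

    binAbelC_c : T7.H910.BinAbelC910                                        (UNCONDITIONAL)
    downArchC_of_enum (K K') : T7.H910.ArchEnumC910 K K' → T7.B981.DownArchC981 K K'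

`BinAbelC910` is `AbelConvMC` of `Push/AbelConv.lean` (`abelConvM_c`: the two leaves of station
T6.20x closed by helper323, in the coordinates of tower T3) together with `isSymBump_convE` of
`Push/Sym.lean` (the convolution of two symmetric bumps is a symmetric bump).  The constant is
`cμ = κ₆₈₀ c`, `c` the Jacobian of `(ζ, r) ↦ ((ζ + r)/2, (ζ - r)/2)`.
-/

set_option autoImplicit false
set_option linter.style.haveILetI false
set_option linter.unusedVariables false

open MeasureTheory NumberField

noncomputable section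

namespace Fermat.Agent.LT.T3.Push

open Fermat.Agent.LT.T3.AS Fermat.Agent.LT.T6

/-- **LEAF DA.1 = THE BINARY STEP (LOCAL, `GL₂(ℂ)`), VERBATIM, UNCONDITIONAL.** -/
theorem binAbelC_c : T7.H910.BinAbelC910 := by
  intro μc hμc
  obtain ⟨κ, hκ, h⟩ := abelConvM_c μc hμc
  refine ⟨κ, fun F₁ F₂ β₁ β₂ hb1 hb2 hF1 hF2 hs1 hs2 ha1 ha2 => ?_⟩
  obtain ⟨h1, h2, h3⟩ := h F₁ F₂ β₁ β₂ hF1 hs1 hF2 hs2 ha1 ha2
  exact ⟨h2, isSymBump_convE hb1 hb2, hasAbelN_congr (fun y => rfl) h3⟩

/-- **`DownArchC981`** (node D.4 of `DatC981`, helper981) from the enumeration of the fibres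
alone: the top of helper910 with the binary step closed. -/
theorem downArchC_of_enum (K K' : Type) [Field K] [NumberField K] [Field K'] [NumberField K']
    [Algebra K K'] (hE : T7.H910.ArchEnumC910 K K') : T7.B981.DownArchC981 K K' :=
  T7.H910.downArchC_of910 K K' binAbelC_c hE

end Fermat.Agent.LT.T3.Push

end
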