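import Fermat.Agent.LT.T3.Push.Kits

/-!
# Row LT, tower T3, station T3.19 (helper14): the push-forward of the core -- THE DILATIONS

OFF-MAIN.  Complete proofs.  ADDITIVE (new names only, namespace `T3.Push`).

The first step of the push-forward: the coordinatewise dilations `m_w ↦ f_w m_w`,
`x_w ↦ r_w x_w` (`dil_tel`); the elementary properties of `dilZ`, `dilE`.
-/

set_option autoImplicit false

open MeasureTheory

noncomputable section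

namespace Fermat.Agent.LT.T3.Push

open Fermat.Agent.LT.T3.M

theorem dilZ_one (A : ℤ × ℤ → ℂ) : dilZ 1 A = A := by
  funext n
  simp [dilZ]

theorem dilE_one (β : ℝ × ℝ → ℂ) : dilE 1 β = β := by
  funext y
  simp [dilE]

theorem dilZ_mul (f : ℕ) (hf : 0 < f) (A : ℤ × ℤ → ℂ) (m : ℤ × ℤ) :
    dilZ f A (((f : ℤ) * m.1, (f : ℤ) * m.2)) = A m := by
  have hf' : (f : ℤ) ≠ 0 := by exact_mod_cast hf.ne'
  unfold dilZ
  rw [if_pos ⟨dvd_mul_right _ _, dvd_mul_right _ _⟩]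
  simp [Int.mul_ediv_cancel_left _ hf']

theorem dilZ_of_not (f : ℕ) (A : ℤ × ℤ → ℂ) (n : ℤ × ℤ)
    (h : ¬ ((f : ℤ) ∣ n.1 ∧ (f : ℤ) ∣ n.2)) : dilZ f A n = 0 := by
  unfold dilZ
  rw [if_neg h]

/-- `dilZ` along the direction `(f e, 0)`. -/
theorem dilZ_shift (f : ℕ) (hf : 0 < f) (A : ℤ × ℤ → ℂ) (n : ℤ × ℤ) (j : ℤ) (e : ℕ) :
    dilZ f A (n + j • ((((f * e : ℕ) : ℤ), 0) : ℤ × ℤ))
      = if (f : ℤ) ∣ n.1 ∧ (f : ℤ) ∣ n.2 then
          A ((n.1 / (f : ℤ), n.2 / (f : ℤ)) + j • (((e : ℤ), 0) : ℤ × ℤ)) else 0 := by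
  have hf' : (f : ℤ) ≠ 0 := by exact_mod_cast hf.ne'
  have h1 : (n + j • ((((f * e : ℕ) : ℤ), 0) : ℤ × ℤ)).1 = n.1 + (f : ℤ) * (j * e) := by
    simp only [Prod.fst_add, Prod.smul_fst, smul_eq_mul, Nat.cast_mul]
    ring
  have h2 : (n + j • ((((f * e : ℕ) : ℤ), 0) : ℤ × ℤ)).2 = n.2 := by
    simp
  have hd : (f : ℤ) ∣ n.1 + (f : ℤ) * (j * e) ↔ (f : ℤ) ∣ n.1 :=
    Int.dvd_add_left (dvd_mul_right _ _)
  unfold dilZ
  rw [h1, h2]
  by_cases hdiv : (f : ℤ) ∣ n.1 ∧ (f : ℤ) ∣ n.2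
  · rw [if_pos ⟨hd.2 hdiv.1, hdiv.2⟩, if_pos hdiv, Int.add_mul_ediv_left _ _ hf']
    congr 1
    ext <;> simp
  · rw [if_neg fun h => hdiv ⟨hd.1 h.1, h.2⟩, if_neg hdiv]

/-- `dilE` along the direction `(r ℓ, 0)`. -/
theorem dilE_shift (r : ℝ) (hr : r ≠ 0) (β : ℝ × ℝ → ℂ) (x : ℝ × ℝ) (j : ℤ) (ℓ : ℝ) :
    dilE r β (x + j • ((r * ℓ, 0) : ℝ × ℝ)) = β (r⁻¹ • x + j • ((ℓ, 0) : ℝ × ℝ)) := by
  unfold dilE
  congr 1
  ext
  · simp only [Prod.smul_fst, Prod.fst_add, smul_eq_mul]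
    rw [zsmul_eq_mul, zsmul_eq_mul]
    field_simp
  · simp

theorem finite_support_dilZ (f : ℕ) (A : ℤ × ℤ → ℂ) (hA : (Function.support A).Finite) :
    (Function.support (dilZ f A)).Finite := by
  refine (hA.image fun m : ℤ × ℤ => ((f : ℤ) * m.1, (f : ℤ) * m.2)).subset ?_
  intro n hn
  rw [Function.mem_support] at hn
  by_cases hdiv : (f : ℤ) ∣ n.1 ∧ (f : ℤ) ∣ n.2
  · unfold dilZ at hn
    rw [if_pos hdiv] at hn
    refine ⟨(n.1 / (f : ℤ), n.2 / (f : ℤ)), hn, ?_⟩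
    ext
    · exact Int.mul_ediv_cancel' hdiv.1
    · exact Int.mul_ediv_cancel' hdiv.2
  · exact absurd (dilZ_of_not f A n hdiv) hn

theorem cont_dilE (r : ℝ) (hr : r ≠ 0) (β : ℝ × ℝ → ℂ)
    (hβ : Continuous β ∧ HasCompactSupport β) :
    Continuous (dilE r β) ∧ HasCompactSupport (dilE r β) := by
  have hr' : r⁻¹ ≠ 0 := inv_ne_zero hr
  refine ⟨hβ.1.comp (continuous_const_smul r⁻¹), ?_⟩
  exact hβ.2.comp_homeomorph (Homeomorph.smulOfNeZero r⁻¹ hr')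

/-- **THE DILATIONS**: the sum of the dilated pure tensors telescopes along the dilated
direction. -/
theorem dil_tel {ι₁' ι₂' I : Type} [Fintype ι₁'] [Fintype ι₂'] [Fintype I]
    (fd : ι₁' → ℕ) (rd : ι₂' → ℝ) (e' : ι₁' → ℕ) (ℓ' : ι₂' → ℝ)
    (hfd : ∀ i', 0 < fd i') (hrd : ∀ w', rd w' ≠ 0)
    (c : I → ℂ) (A' : I → ι₁' → ℤ × ℤ → ℂ) (β' : I → ι₂' → ℝ × ℝ → ℂ)
    (htel : ∀ Δ' : Crd ι₁' ι₂',
      HasSum (fun j : ℤ => ∑ a, c a * pureCrd (A' a) (β' a) (Δ' + j • c0 e' ℓ')) 0)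
    (m : ι₁' → ℤ × ℤ) (x : ι₂' → ℝ × ℝ) :
    HasSum (fun j : ℤ => ∑ a, c a *
      ((∏ i', dilZ (fd i') (A' a i') (m i' + j • ((((fd i' * e' i' : ℕ) : ℤ), 0) : ℤ × ℤ)))
        * ∏ w', dilE (rd w') (β' a w') (x w' + j • ((rd w' * ℓ' w', 0) : ℝ × ℝ)))) 0 := by
  by_cases hdiv : ∀ i', (fd i' : ℤ) ∣ (m i').1 ∧ (fd i' : ℤ) ∣ (m i').2
  · have := htel (fun i' => ((m i').1 / (fd i' : ℤ), (m i').2 / (fd i' : ℤ)),
      fun w' => (rd w')⁻¹ • x w')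
    have e : (fun j : ℤ => ∑ a, c a *
        ((∏ i', dilZ (fd i') (A' a i')
            (m i' + j • ((((fd i' * e' i' : ℕ) : ℤ), 0) : ℤ × ℤ)))
          * ∏ w', dilE (rd w') (β' a w') (x w' + j • ((rd w' * ℓ' w', 0) : ℝ × ℝ))))
        = fun j : ℤ => ∑ a, c a * pureCrd (A' a) (β' a)
            (((fun i' => ((m i').1 / (fd i' : ℤ), (m i').2 / (fd i' : ℤ)),
              fun w' => (rd w')⁻¹ • x w') : Crd ι₁' ι₂') + j • c0 e' ℓ') := by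
      funext j
      refine Finset.sum_congr rfl fun a _ => ?_
      congr 1
      unfold pureCrd
      congr 1
      · refine Finset.prod_congr rfl fun i' _ => ?_
        rw [dilZ_shift _ (hfd i'), if_pos (hdiv i')]
        rfl
      · refine Finset.prod_congr rfl fun w' _ => ?_
        rw [dilE_shift _ (hrd w')]
        rfl
    rw [e]; exact this
  · rw [not_forall] at hdiv
    obtain ⟨i₀, hi₀⟩ := hdiv
    have e : (fun j : ℤ => ∑ a, c a *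
        ((∏ i', dilZ (fd i') (A' a i')
            (m i' + j • ((((fd i' * e' i' : ℕ) : ℤ), 0) : ℤ × ℤ)))
          * ∏ w', dilE (rd w') (β' a w') (x w' + j • ((rd w' * ℓ' w', 0) : ℝ × ℝ))))
        = fun _ => 0 := by
      funext j
      refine Finset.sum_eq_zero fun a _ => ?_
      have : ∏ i', dilZ (fd i') (A' a i')
          (m i' + j • ((((fd i' * e' i' : ℕ) : ℤ), 0) : ℤ × ℤ)) = 0 := by
        refine Finset.prod_eq_zero (Finset.mem_univ i₀) ?_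
        rw [dilZ_shift _ (hfd i₀), if_neg hi₀]
      rw [this, zero_mul, mul_zero]
    rw [e]; exact hasSum_zero

end Fermat.Agent.LT.T3.Push

end
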