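import Fermat.Agent.LT.T3.Push.Kit

/-!
# Row LT, tower T3, station T3.19 (helper14): the push-forward of the core -- THE ITERATION

OFF-MAIN.  Complete proofs, MATHLIB ONLY.  ADDITIVE (new names only, namespace `T3.Push`).

`Tel.push`: for an enumeration of the fibres of `ι → κ` the telescoping state of a family on `ι`
(active set `univ`) gives the telescoping state of the family of the left nested convolutions
along the fibres on `κ`; the direction is the sum of the directions along the fibres.
-/

set_option autoImplicit false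
set_option linter.unusedSectionVars false

noncomputable section

namespace Fermat.Agent.LT.T3.Push

section Iter

variable {G : Type} [AddCommGroup G] {kit : IntKit G} {Z : Type} [AddCommGroup Z]
  {ι : Type} [Fintype ι] [DecidableEq ι] {κ : Type} [Fintype κ] [DecidableEq κ]
  {I : Type} [Fintype I]

/-- The data of an enumeration of the fibres with the inverse maps. -/
structure FibData (k : κ → ℕ) (w : κ → ℕ → ι) (fib : ι → κ) (pos : ι → ℕ) : Prop where
  pos_lt : ∀ i, pos i < k (fib i)
  w_fib : ∀ i, w (fib i) (pos i) = i
  fib_w : ∀ v j, j < k v → fib (w v j) = v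
  pos_w : ∀ v j, j < k v → pos (w v j) = j

variable {k : κ → ℕ} {w : κ → ℕ → ι} {fib : ι → κ} {pos : ι → ℕ}

/-- The active set at the stage `t`: the heads and the elements not yet merged. -/
def stS (fib : ι → κ) (pos : ι → ℕ) (t : κ → ℕ) : Finset ι :=
  Finset.univ.filter fun i => pos i = 0 ∨ t (fib i) < pos i

/-- The factors at the stage `t`. -/
def stB (kit : IntKit G) (w : κ → ℕ → ι) (fib : ι → κ) (pos : ι → ℕ) (B : I → ι → G → ℂ)
    (t : κ → ℕ) : I → ι → G → ℂ :=
  fun a i => if pos i = 0 then kit.convL (fun j => B a (w (fib i) j)) (t (fib i)) else B a i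

/-- The direction at the stage `t`. -/
def stC (w : κ → ℕ → ι) (fib : ι → κ) (pos : ι → ℕ) (c : ι → G) (t : κ → ℕ) : ι → G :=
  fun i => if pos i = 0 then ∑ j ∈ Finset.range (t (fib i) + 1), c (w (fib i) j) else c i

theorem stS_zero (fib : ι → κ) (pos : ι → ℕ) : stS fib pos (fun _ => 0) = Finset.univ := by
  ext i
  simp only [stS, Finset.mem_filter, Finset.mem_univ, true_and, iff_true]
  omega

theorem stB_zero (hD : FibData k w fib pos) (B : I → ι → G → ℂ) :
    stB kit w fib pos B (fun _ => 0) = B := by
  funext a i
  unfold stB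
  split_ifs with h
  · have := hD.w_fib i
    rw [h] at this
    show kit.convL (fun j => B a (w (fib i) j)) 0 = B a i
    rw [IntKit.convL, this]
  · rfl

theorem stC_zero (hD : FibData k w fib pos) (c : ι → G) :
    stC w fib pos c (fun _ => 0) = c := by
  funext i
  unfold stC
  split_ifs with h
  · have := hD.w_fib i
    rw [h] at this
    simp [this]
  · rfl

/-- One step of the iteration: the identification of the merged state. -/
theorem stS_step (hD : FibData k w fib pos) (t : κ → ℕ) (v : κ) (m : ℕ)
    (htv : t v = m + 1) (hlt : m + 1 < k v) :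
    stS fib pos t = (stS fib pos (Function.update t v m)).erase (w v (m + 1)) := by
  ext i
  simp only [stS, Finset.mem_filter, Finset.mem_univ, true_and, Finset.mem_erase]
  by_cases hv : fib i = v
  · have hib : i = w v (m + 1) ↔ pos i = m + 1 := by
      constructor
      · intro h; rw [h]; exact hD.pos_w v (m + 1) hlt
      · intro h
        have := hD.w_fib i
        rw [hv, h] at this
        exact this.symm
    rw [hv, htv, Function.update_self, Ne, hib]
    omega
  · have hne : i ≠ w v (m + 1) := by
      intro h
      apply hv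
      rw [h]; exact hD.fib_w v (m + 1) hlt
    rw [Function.update_of_ne hv]
    simp [hne]

theorem stB_step (hD : FibData k w fib pos) (B : I → ι → G → ℂ) (t : κ → ℕ) (v : κ) (m : ℕ)
    (htv : t v = m + 1) (hlt : m + 1 < k v) :
    stB kit w fib pos B t = fun a =>
      Function.update (stB kit w fib pos B (Function.update t v m) a) (w v 0)
        (kit.conv (stB kit w fib pos B (Function.update t v m) a (w v 0))
          (stB kit w fib pos B (Function.update t v m) a (w v (m + 1)))) := by
  have h0 : 0 < k v := by omega
  have hf0 : fib (w v 0) = v := hD.fib_w v 0 h0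
  have hp0 : pos (w v 0) = 0 := hD.pos_w v 0 h0
  have hpb : pos (w v (m + 1)) = m + 1 := hD.pos_w v (m + 1) hlt
  funext a i
  by_cases hi : i = w v 0
  · subst hi
    rw [Function.update_self]
    unfold stB
    rw [if_pos hp0, if_pos hp0, if_neg (by rw [hpb]; omega), hf0, htv, Function.update_self]
    rfl
  · rw [Function.update_of_ne hi]
    unfold stB
    by_cases hp : pos i = 0
    · rw [if_pos hp, if_pos hp]
      have hv : fib i ≠ v := by
        intro hv
        apply hi
        have := hD.w_fib i
        rw [hv, hp] at this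
        exact this.symm
      rw [Function.update_of_ne hv]
    · rw [if_neg hp, if_neg hp]

theorem stC_step (hD : FibData k w fib pos) (c : ι → G) (t : κ → ℕ) (v : κ) (m : ℕ)
    (htv : t v = m + 1) (hlt : m + 1 < k v) :
    stC w fib pos c t =
      Function.update (stC w fib pos c (Function.update t v m)) (w v 0)
        (stC w fib pos c (Function.update t v m) (w v 0)
          + stC w fib pos c (Function.update t v m) (w v (m + 1))) := by
  have h0 : 0 < k v := by omega
  have hf0 : fib (w v 0) = v := hD.fib_w v 0 h0
  have hp0 : pos (w v 0) = 0 := hD.pos_w v 0 h0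
  have hpb : pos (w v (m + 1)) = m + 1 := hD.pos_w v (m + 1) hlt
  funext i
  by_cases hi : i = w v 0
  · subst hi
    rw [Function.update_self]
    unfold stC
    rw [if_pos hp0, if_pos hp0, if_neg (by rw [hpb]; omega), hf0, htv, Function.update_self,
      Finset.sum_range_succ _ (m + 1)]
  · rw [Function.update_of_ne hi]
    unfold stC
    by_cases hp : pos i = 0
    · rw [if_pos hp, if_pos hp]
      have hv : fib i ≠ v := by
        intro hv
        apply hi
        have := hD.w_fib i
        rw [hv, hp] at this
        exact this.symm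
      rw [Function.update_of_ne hv]
    · rw [if_neg hp, if_neg hp]

/-- **THE ITERATION**: the telescoping state at every stage. -/
theorem Tel.stage {lZ : Z →+ ℤ} {lG : G →+ ℤ} {g : I → Z → ℂ} {cZ : Z} {Bd : Finset ℤ}
    {B : I → ι → G → ℂ} {c : ι → G} (hD : FibData k w fib pos)
    (h : Tel kit lZ lG g cZ Bd Finset.univ B c) :
    ∀ (n : ℕ) (t : κ → ℕ), (∀ v, t v < k v) → ∑ v, t v = n →
      Tel kit lZ lG g cZ Bd (stS fib pos t) (stB kit w fib pos B t) (stC w fib pos c t) := by
  intro n
  induction n with
  | zero =>
    intro t _ hsum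
    have ht : t = fun _ => 0 := by
      funext v
      exact (Finset.sum_eq_zero_iff.1 hsum) v (Finset.mem_univ v)
    rw [ht, stS_zero, stB_zero hD, stC_zero hD]
    exact h
  | succ n ih =>
    intro t ht hsum
    obtain ⟨v, hv⟩ : ∃ v, 0 < t v := by
      by_contra hc
      have : ∑ v, t v = 0 := Finset.sum_eq_zero fun v _ => by
        by_contra h0
        exact hc ⟨v, Nat.pos_of_ne_zero h0⟩
      omega
    obtain ⟨m, hm⟩ : ∃ m, t v = m + 1 := ⟨t v - 1, by omega⟩
    have hlt : m + 1 < k v := hm ▸ ht v
    have ht' : ∀ v', Function.update t v m v' < k v' := by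
      intro v'
      by_cases h1 : v' = v
      · subst h1; rw [Function.update_self]; omega
      · rw [Function.update_of_ne h1]; exact ht v'
    have hsum' : ∑ v', Function.update t v m v' = n := by
      have h1 := Finset.sum_update_of_mem (Finset.mem_univ v) t m
      have h2 := Finset.add_sum_erase Finset.univ t (Finset.mem_univ v)
      rw [Finset.sdiff_singleton_eq_erase] at h1
      omega
    have hprev := ih (Function.update t v m) ht' hsum'
    have h0 : 0 < k v := by omega
    have hp0 : pos (w v 0) = 0 := hD.pos_w v 0 h0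
    have hpb : pos (w v (m + 1)) = m + 1 := hD.pos_w v (m + 1) hlt
    have hfb : fib (w v (m + 1)) = v := hD.fib_w v (m + 1) hlt
    have ha : w v 0 ∈ stS fib pos (Function.update t v m) := by
      simp only [stS, Finset.mem_filter, Finset.mem_univ, true_and]
      exact Or.inl hp0
    have hb : w v (m + 1) ∈ stS fib pos (Function.update t v m) := by
      simp only [stS, Finset.mem_filter, Finset.mem_univ, true_and]
      right
      rw [hfb, Function.update_self, hpb]
      omega
    have hab : w v 0 ≠ w v (m + 1) := by
      intro heq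
      have := congrArg pos heq
      rw [hp0, hpb] at this
      omega
    have := hprev.merge ha hb hab
    rw [stS_step hD t v m hm hlt, stB_step hD B t v m hm hlt, stC_step hD c t v m hm hlt]
    exact this

/-- At the last stage the active set is the set of the heads. -/
theorem stS_last (hk : ∀ v, 0 < k v) (hD : FibData k w fib pos) :
    stS fib pos (fun v => k v - 1) = Finset.univ.image fun v => w v 0 := by
  ext i
  simp only [stS, Finset.mem_filter, Finset.mem_univ, true_and, Finset.mem_image]
  constructor
  · intro hi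
    have h1 := hD.pos_lt i
    have h2 : pos i = 0 := by omega
    refine ⟨fib i, ?_⟩
    have := hD.w_fib i
    rw [h2] at this
    exact this
  · rintro ⟨v, rfl⟩
    exact Or.inl (hD.pos_w v 0 (hk v))

theorem head_inj (hk : ∀ v, 0 < k v) (hD : FibData k w fib pos) :
    Function.Injective fun v => w v 0 := by
  intro v v' h
  have h1 := hD.fib_w v 0 (hk v)
  have h2 := hD.fib_w v' 0 (hk v')
  simp only at h
  rw [h] at h1
  rw [← h1, h2]

theorem prod_last {M : Type} [CommMonoid M] (hk : ∀ v, 0 < k v) (hD : FibData k w fib pos)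
    (h : ι → M) : ∏ i ∈ stS fib pos (fun v => k v - 1), h i = ∏ v : κ, h (w v 0) := by
  rw [stS_last hk hD, Finset.prod_image fun v _ v' _ hvv => head_inj hk hD hvv]

theorem sum_last {M : Type} [AddCommMonoid M] (hk : ∀ v, 0 < k v) (hD : FibData k w fib pos)
    (h : ι → M) : ∑ i ∈ stS fib pos (fun v => k v - 1), h i = ∑ v : κ, h (w v 0) := by
  rw [stS_last hk hD, Finset.sum_image fun v _ v' _ hvv => head_inj hk hD hvv]

theorem stB_last (hk : ∀ v, 0 < k v) (hD : FibData k w fib pos) (B : I → ι → G → ℂ) (a : I)
    (v : κ) :
    stB kit w fib pos B (fun v => k v - 1) a (w v 0)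
      = kit.convL (fun j => B a (w v j)) (k v - 1) := by
  unfold stB
  rw [if_pos (hD.pos_w v 0 (hk v)), hD.fib_w v 0 (hk v)]

theorem stC_last (hk : ∀ v, 0 < k v) (hD : FibData k w fib pos) (c : ι → G) (v : κ) :
    stC w fib pos c (fun v => k v - 1) (w v 0) = ∑ j ∈ Finset.range (k v), c (w v j) := by
  unfold stC
  rw [if_pos (hD.pos_w v 0 (hk v)), hD.fib_w v 0 (hk v), Nat.sub_add_cancel (hk v)]

theorem psi_last (hk : ∀ v, 0 < k v) (hD : FibData k w fib pos) (g : I → Z → ℂ)
    (B : I → ι → G → ℂ) (z : Z) (x : ι → G) :
    psi g (stS fib pos (fun v => k v - 1)) (stB kit w fib pos B (fun v => k v - 1)) z x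
      = psi g (Finset.univ : Finset κ)
          (fun a v => kit.convL (fun j => B a (w v j)) (k v - 1)) z (fun v => x (w v 0)) := by
  unfold psi
  refine Finset.sum_congr rfl fun a _ => ?_
  rw [prod_last hk hD]
  congr 1
  refine Finset.prod_congr rfl fun v _ => ?_
  rw [stB_last hk hD]

/-- **THE PUSH-FORWARD OF THE TELESCOPING STATE** along an enumeration of the fibres. -/
theorem Tel.push {lZ : Z →+ ℤ} {lG : G →+ ℤ} {g : I → Z → ℂ} {cZ : Z} {Bd : Finset ℤ}
    {B : I → ι → G → ℂ} {c : ι → G} (hk : ∀ v, 0 < k v) (hD : FibData k w fib pos)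
    (h : Tel kit lZ lG g cZ Bd Finset.univ B c) :
    Tel kit lZ lG g cZ Bd (Finset.univ : Finset κ)
      (fun a v => kit.convL (fun j => B a (w v j)) (k v - 1))
      (fun v => ∑ j ∈ Finset.range (k v), c (w v j)) := by
  have hst := h.stage hD (∑ v, (k v - 1)) (fun v => k v - 1)
    (fun v => Nat.sub_lt (hk v) Nat.one_pos) rfl
  refine ⟨?_, ?_, ?_, ?_⟩
  · intro a v _
    have := hst.reg a (w v 0) (by
      rw [stS_last hk hD]; exact Finset.mem_image_of_mem _ (Finset.mem_univ v))
    rwa [stB_last hk hD] at this
  · intro z y hne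
    have e := psi_last (kit := kit) hk hD g B z (fun i => y (fib i))
    have e2 : (fun v => (fun i => y (fib i)) (w v 0)) = y := by
      funext v
      show y (fib (w v 0)) = y v
      rw [hD.fib_w v 0 (hk v)]
    rw [e2] at e
    rw [← e] at hne
    have := hst.supp z (fun i => y (fib i)) hne
    rw [sum_last hk hD] at this
    have e3 : ∑ v : κ, lG ((fun i => y (fib i)) (w v 0)) = ∑ v : κ, lG (y v) := by
      refine Finset.sum_congr rfl fun v _ => ?_
      show lG (y (fib (w v 0))) = lG (y v)
      rw [hD.fib_w v 0 (hk v)]
    rwa [e3] at this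
  · have := hst.deg
    rw [sum_last hk hD] at this
    have e3 : ∑ v : κ, lG (stC w fib pos c (fun v => k v - 1) (w v 0))
        = ∑ v : κ, lG (∑ j ∈ Finset.range (k v), c (w v j)) := by
      refine Finset.sum_congr rfl fun v _ => ?_
      rw [stC_last hk hD]
    rwa [e3] at this
  · intro z y
    have := hst.tel z (fun i => y (fib i))
    have e : (fun j : ℤ => psi g (stS fib pos (fun v => k v - 1))
          (stB kit w fib pos B (fun v => k v - 1)) (z + j • cZ)
          (fun i => (fun i => y (fib i)) i + j • stC w fib pos c (fun v => k v - 1) i))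
        = fun j : ℤ => psi g (Finset.univ : Finset κ)
            (fun a v => kit.convL (fun j => B a (w v j)) (k v - 1)) (z + j • cZ)
            (fun v => y v + j • ∑ j ∈ Finset.range (k v), c (w v j)) := by
      funext j
      rw [psi_last hk hD]
      congr 1
      funext v
      show y (fib (w v 0)) + j • stC w fib pos c (fun v => k v - 1) (w v 0) = _
      rw [hD.fib_w v 0 (hk v), stC_last hk hD]
    rwa [e] at this

omit [Fintype ι] [DecidableEq ι] [Fintype κ] [DecidableEq κ] in
/-- The inverse maps of an enumeration of the fibres. -/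
theorem exists_fibData
    (hinj : ∀ (i i₂ : κ) (j j₂ : ℕ), j < k i → j₂ < k i₂ → w i j = w i₂ j₂ → i = i₂ ∧ j = j₂)
    (hsur : ∀ i' : ι, ∃ (i : κ) (j : ℕ), j < k i ∧ w i j = i') :
    ∃ (fib : ι → κ) (pos : ι → ℕ), FibData k w fib pos := by
  choose fib pos hpos hw using hsur
  refine ⟨fib, pos, ⟨hpos, hw, ?_, ?_⟩⟩
  · intro v j hj
    exact (hinj _ _ _ _ (hpos (w v j)) hj (hw (w v j))).1
  · intro v j hj
    exact (hinj _ _ _ _ (hpos (w v j)) hj (hw (w v j))).2

end Iter

/-! ## Appendix: the equation lemmas of the definitions of this file are realised HERE -/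

theorem eqns_realised_pushIter : True := by
  have _a1 := @stS.eq_1
  have _a2 := @stB.eq_1
  have _a3 := @stC.eq_1
  trivial

end Fermat.Agent.LT.T3.Push

end
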