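import Mathlib

/-!
# Row LT, tower T3, station T3.19 (helper14): the push-forward of the core -- THE ENGINE

OFF-MAIN.  Complete proofs, MATHLIB ONLY.  ADDITIVE (new names only, namespace `T3.Push`).

An "integration kit" on an additive commutative group `G` (a translation invariant linear
functional `I` on a class `F` of functions, a class `R` of test functions stable under the
convolution of `I`), the telescoping state `Tel` of a finite family of pure tensors on an active
set of coordinates, and THE MERGE: the convolution of two coordinates preserves the telescoping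
state (`Tel.merge`).
-/

set_option autoImplicit false
set_option linter.unusedSectionVars false

noncomputable section

namespace Fermat.Agent.LT.T3.Push

/-- An integration kit on `G`: a functional `I`, linear and translation invariant on the class
`F`; a class `R` of test functions whose convolution integrands are in `F` and whose convolutions
are in `R`. -/
structure IntKit (G : Type) [AddCommGroup G] where
  /-- the integral -/
  I : (G → ℂ) → ℂ
  /-- the integrable functions -/
  F : (G → ℂ) → Prop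
  /-- the test functions -/
  R : (G → ℂ) → Prop
  I_zero : I (fun _ => 0) = 0
  I_add : ∀ f g : G → ℂ, F f → F g → I (fun u => f u + g u) = I f + I g
  I_smul : ∀ (c : ℂ) (f : G → ℂ), F f → I (fun u => c * f u) = c * I f
  I_trans : ∀ (f : G → ℂ) (h : G), F f → I (fun u => f (u + h)) = I f
  F_zero : F (fun _ => 0)
  F_add : ∀ f g : G → ℂ, F f → F g → F (fun u => f u + g u)
  F_smul : ∀ (c : ℂ) (f : G → ℂ), F f → F (fun u => c * f u)
  F_trans : ∀ (f : G → ℂ) (h : G), F f → F (fun u => f (u + h))
  F_conv : ∀ β γ : G → ℂ, R β → R γ → ∀ y : G, F (fun u => β u * γ (y - u))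
  R_conv : ∀ β γ : G → ℂ, R β → R γ → R (fun y => I (fun u => β u * γ (y - u)))

section Kit

variable {G : Type} [AddCommGroup G] (kit : IntKit G)

/-- The convolution of the kit: `(β ⋆ γ)(y) = I(u ↦ β(u) γ(y - u))`. -/
def IntKit.conv (β γ : G → ℂ) : G → ℂ :=
  fun y => kit.I (fun u => β u * γ (y - u))

/-- Left nested iterated convolution: `b 0 ⋆ b 1 ⋆ ⋯ ⋆ b j`. -/
def IntKit.convL {G : Type} [AddCommGroup G] (kit : IntKit G) (b : ℕ → G → ℂ) : ℕ → G → ℂ
  | 0 => b 0
  | (j + 1) => kit.conv (IntKit.convL kit b j) (b (j + 1))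

theorem IntKit.R_convL (b : ℕ → G → ℂ) (n : ℕ) (h : ∀ j ≤ n, kit.R (b j)) :
    kit.R (kit.convL b n) := by
  induction n with
  | zero => exact h 0 le_rfl
  | succ n ih =>
    exact kit.R_conv _ _ (ih fun j hj => h j (Nat.le_succ_of_le hj)) (h (n + 1) le_rfl)

theorem IntKit.F_sum {α : Type} (s : Finset α) (f : α → G → ℂ)
    (h : ∀ i ∈ s, kit.F (f i)) : kit.F (fun u => ∑ i ∈ s, f i u) := by
  classical
  induction s using Finset.induction_on with
  | empty => simpa using kit.F_zero
  | insert i s hi ih =>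
    have h1 : kit.F (f i) := h i (Finset.mem_insert_self i s)
    have h2 : kit.F (fun u => ∑ i ∈ s, f i u) :=
      ih fun j hj => h j (Finset.mem_insert_of_mem hj)
    have := kit.F_add _ _ h1 h2
    have e : (fun u => ∑ j ∈ insert i s, f j u) = fun u => f i u + ∑ j ∈ s, f j u := by
      funext u; rw [Finset.sum_insert hi]
    rw [e]; exact this

theorem IntKit.I_sum {α : Type} (s : Finset α) (f : α → G → ℂ)
    (h : ∀ i ∈ s, kit.F (f i)) :
    kit.I (fun u => ∑ i ∈ s, f i u) = ∑ i ∈ s, kit.I (f i) := by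
  classical
  induction s using Finset.induction_on with
  | empty => simpa using kit.I_zero
  | insert i s hi ih =>
    have h1 : kit.F (f i) := h i (Finset.mem_insert_self i s)
    have h2 : kit.F (fun u => ∑ i ∈ s, f i u) :=
      kit.F_sum s f fun j hj => h j (Finset.mem_insert_of_mem hj)
    have e : (fun u => ∑ j ∈ insert i s, f j u) = fun u => f i u + ∑ j ∈ s, f j u := by
      funext u; rw [Finset.sum_insert hi]
    rw [e, kit.I_add _ _ h1 h2, ih fun j hj => h j (Finset.mem_insert_of_mem hj),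
      Finset.sum_insert hi]

/-- If `I f ≠ 0` then `f` does not vanish identically. -/
theorem IntKit.exists_ne_of_I_ne (f : G → ℂ) (h : kit.I f ≠ 0) : ∃ u, f u ≠ 0 := by
  by_contra hc
  have : f = fun _ => 0 := by
    funext u
    by_contra hu
    exact hc ⟨u, hu⟩
  exact h (by rw [this]; exact kit.I_zero)

end Kit

/-! ## The telescoping state -/

section State

variable {G : Type} [AddCommGroup G] (kit : IntKit G) {Z : Type} [AddCommGroup Z]
  {ι : Type} [DecidableEq ι] {I : Type} [Fintype I]

/-- The sum of pure tensors on the active set `S` with the spectator factors `g a`. -/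
def psi (g : I → Z → ℂ) (S : Finset ι) (B : I → ι → G → ℂ) (z : Z) (x : ι → G) : ℂ :=
  ∑ a, g a z * ∏ i ∈ S, B a i (x i)

/-- THE TELESCOPING STATE: the factors are test functions, the total degree
`lZ z + ∑_{i ∈ S} lG (x i)` of a point of the support lies in the finite set `Bd`, the total
degree of the direction `(cZ, c)` is not zero, and the sum telescopes along `(cZ, c)`. -/
structure Tel (lZ : Z →+ ℤ) (lG : G →+ ℤ) (g : I → Z → ℂ) (cZ : Z) (Bd : Finset ℤ)
    (S : Finset ι) (B : I → ι → G → ℂ) (c : ι → G) : Prop where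
  reg : ∀ a, ∀ i ∈ S, kit.R (B a i)
  supp : ∀ (z : Z) (x : ι → G), psi g S B z x ≠ 0 → lZ z + ∑ i ∈ S, lG (x i) ∈ Bd
  deg : lZ cZ + ∑ i ∈ S, lG (c i) ≠ 0
  tel : ∀ (z : Z) (x : ι → G),
    HasSum (fun j : ℤ => psi g S B (z + j • cZ) (fun i => x i + j • c i)) 0

variable {kit}

/-- The substitution of the merge of `b` into `a₀`: `x_{a₀} ↦ u`, `x_b ↦ x_{a₀} - u`. -/
def sig (a₀ b : ι) (x : ι → G) (u : G) : ι → G :=
  Function.update (Function.update x a₀ u) b (x a₀ - u)

theorem sig_a {a₀ b : ι} (hab : a₀ ≠ b) (x : ι → G) (u : G) : sig a₀ b x u a₀ = u := by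
  unfold sig
  rw [Function.update_of_ne hab, Function.update_self]

theorem sig_b {a₀ b : ι} (x : ι → G) (u : G) : sig a₀ b x u b = x a₀ - u := by
  unfold sig
  rw [Function.update_self]

theorem sig_ne {a₀ b i : ι} (h1 : i ≠ a₀) (h2 : i ≠ b) (x : ι → G) (u : G) :
    sig a₀ b x u i = x i := by
  unfold sig
  rw [Function.update_of_ne h2, Function.update_of_ne h1]

/-- Splitting of a product over `S` at `a₀`, `b`. -/
theorem prod_split {S : Finset ι} {a₀ b : ι} (ha : a₀ ∈ S) (hb : b ∈ S) (hab : a₀ ≠ b)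
    (h : ι → ℂ) :
    ∏ i ∈ S, h i = (∏ i ∈ (S.erase b).erase a₀, h i) * (h a₀ * h b) := by
  have ha' : a₀ ∈ S.erase b := Finset.mem_erase.2 ⟨hab, ha⟩
  rw [← Finset.mul_prod_erase S h hb, ← Finset.mul_prod_erase (S.erase b) h ha']
  ring

theorem sum_split {S : Finset ι} {a₀ b : ι} (ha : a₀ ∈ S) (hb : b ∈ S) (hab : a₀ ≠ b)
    (h : ι → ℤ) :
    ∑ i ∈ S, h i = (∑ i ∈ (S.erase b).erase a₀, h i) + (h a₀ + h b) := by
  have ha' : a₀ ∈ S.erase b := Finset.mem_erase.2 ⟨hab, ha⟩
  rw [← Finset.add_sum_erase S h hb, ← Finset.add_sum_erase (S.erase b) h ha']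
  ring

theorem sum_split' {S : Finset ι} {a₀ b : ι} (ha : a₀ ∈ S) (hab : a₀ ≠ b)
    (h : ι → ℤ) :
    ∑ i ∈ S.erase b, h i = (∑ i ∈ (S.erase b).erase a₀, h i) + h a₀ := by
  have ha' : a₀ ∈ S.erase b := Finset.mem_erase.2 ⟨hab, ha⟩
  rw [← Finset.add_sum_erase (S.erase b) h ha']
  ring

theorem prod_split' {S : Finset ι} {a₀ b : ι} (ha : a₀ ∈ S) (hab : a₀ ≠ b)
    (h : ι → ℂ) :
    ∏ i ∈ S.erase b, h i = (∏ i ∈ (S.erase b).erase a₀, h i) * h a₀ := by
  have ha' : a₀ ∈ S.erase b := Finset.mem_erase.2 ⟨hab, ha⟩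
  rw [← Finset.mul_prod_erase (S.erase b) h ha']
  ring

/-- The total degree of the substituted point. -/
theorem sum_lG_sig (lG : G →+ ℤ) {S : Finset ι} {a₀ b : ι} (ha : a₀ ∈ S) (hb : b ∈ S)
    (hab : a₀ ≠ b) (x : ι → G) (u : G) :
    ∑ i ∈ S, lG (sig a₀ b x u i) = ∑ i ∈ S.erase b, lG (x i) := by
  rw [sum_split ha hb hab, sum_split' ha hab, sig_a hab, sig_b]
  have : ∑ i ∈ (S.erase b).erase a₀, lG (sig a₀ b x u i)
      = ∑ i ∈ (S.erase b).erase a₀, lG (x i) := by
    refine Finset.sum_congr rfl fun i hi => ?_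
    have h1 : i ≠ a₀ := (Finset.mem_erase.1 hi).1
    have h2 : i ≠ b := (Finset.mem_erase.1 (Finset.mem_erase.1 hi).2).1
    rw [sig_ne h1 h2]
  rw [this, map_sub]
  ring

/-- (K1) the integrand of the merge. -/
theorem psi_sig (g : I → Z → ℂ) {S : Finset ι} {a₀ b : ι} (ha : a₀ ∈ S) (hb : b ∈ S)
    (hab : a₀ ≠ b) (B : I → ι → G → ℂ) (z : Z) (x : ι → G) (u : G) :
    psi g S B z (sig a₀ b x u)
      = ∑ a, (g a z * ∏ i ∈ (S.erase b).erase a₀, B a i (x i))
          * (B a a₀ u * B a b (x a₀ - u)) := by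
  unfold psi
  refine Finset.sum_congr rfl fun a _ => ?_
  rw [prod_split ha hb hab, sig_a hab, sig_b]
  have : ∏ i ∈ (S.erase b).erase a₀, B a i (sig a₀ b x u i)
      = ∏ i ∈ (S.erase b).erase a₀, B a i (x i) := by
    refine Finset.prod_congr rfl fun i hi => ?_
    have h1 : i ≠ a₀ := (Finset.mem_erase.1 hi).1
    have h2 : i ≠ b := (Finset.mem_erase.1 (Finset.mem_erase.1 hi).2).1
    rw [sig_ne h1 h2]
  rw [this]
  ring

/-- (K2) the integrand of the merge is integrable. -/
theorem F_psi_sig (g : I → Z → ℂ) {S : Finset ι} {a₀ b : ι} (ha : a₀ ∈ S) (hb : b ∈ S)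
    (hab : a₀ ≠ b) (B : I → ι → G → ℂ) (hR : ∀ a, ∀ i ∈ S, kit.R (B a i)) (z : Z)
    (x : ι → G) :
    kit.F (fun u => psi g S B z (sig a₀ b x u)) := by
  have e : (fun u => psi g S B z (sig a₀ b x u))
      = fun u => ∑ a ∈ (Finset.univ : Finset I),
          (g a z * ∏ i ∈ (S.erase b).erase a₀, B a i (x i))
            * (B a a₀ u * B a b (x a₀ - u)) := by
    funext u; exact psi_sig g ha hb hab B z x u
  rw [e]
  refine kit.F_sum _ _ fun a _ => ?_
  exact kit.F_smul _ _ (kit.F_conv _ _ (hR a a₀ ha) (hR a b hb) (x a₀))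

/-- (K3) the integral of the merge is the merged sum of pure tensors. -/
theorem I_psi_sig (g : I → Z → ℂ) {S : Finset ι} {a₀ b : ι} (ha : a₀ ∈ S) (hb : b ∈ S)
    (hab : a₀ ≠ b) (B : I → ι → G → ℂ) (hR : ∀ a, ∀ i ∈ S, kit.R (B a i)) (z : Z)
    (x : ι → G) :
    kit.I (fun u => psi g S B z (sig a₀ b x u))
      = psi g (S.erase b)
          (fun a => Function.update (B a) a₀ (kit.conv (B a a₀) (B a b))) z x := by
  have e : (fun u => psi g S B z (sig a₀ b x u))
      = fun u => ∑ a ∈ (Finset.univ : Finset I),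
          (g a z * ∏ i ∈ (S.erase b).erase a₀, B a i (x i))
            * (B a a₀ u * B a b (x a₀ - u)) := by
    funext u; exact psi_sig g ha hb hab B z x u
  rw [e, kit.I_sum _ _ fun a _ =>
    kit.F_smul _ _ (kit.F_conv _ _ (hR a a₀ ha) (hR a b hb) (x a₀))]
  unfold psi
  refine Finset.sum_congr rfl fun a _ => ?_
  beta_reduce
  rw [kit.I_smul _ _ (kit.F_conv _ _ (hR a a₀ ha) (hR a b hb) (x a₀)),
    prod_split' ha hab, Function.update_self]
  have : ∏ i ∈ (S.erase b).erase a₀,
        Function.update (B a) a₀ (kit.conv (B a a₀) (B a b)) i (x i)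
      = ∏ i ∈ (S.erase b).erase a₀, B a i (x i) := by
    refine Finset.prod_congr rfl fun i hi => ?_
    have h1 : i ≠ a₀ := (Finset.mem_erase.1 hi).1
    rw [Function.update_of_ne h1]
  rw [this]
  unfold IntKit.conv
  ring

/-- **THE MERGE.**  The convolution of the coordinate `b` into the coordinate `a₀` preserves the
telescoping state; the direction becomes `c_{a₀} + c_b` at `a₀`. -/
theorem Tel.merge {lZ : Z →+ ℤ} {lG : G →+ ℤ} {g : I → Z → ℂ} {cZ : Z} {Bd : Finset ℤ}
    {S : Finset ι} {B : I → ι → G → ℂ} {c : ι → G} (h : Tel kit lZ lG g cZ Bd S B c)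
    {a₀ b : ι} (ha : a₀ ∈ S) (hb : b ∈ S) (hab : a₀ ≠ b) :
    Tel kit lZ lG g cZ Bd (S.erase b)
      (fun a => Function.update (B a) a₀ (kit.conv (B a a₀) (B a b)))
      (Function.update c a₀ (c a₀ + c b)) := by
  have ha' : a₀ ∈ S.erase b := Finset.mem_erase.2 ⟨hab, ha⟩
  refine ⟨?_, ?_, ?_, ?_⟩
  · intro a i hi
    by_cases h1 : i = a₀
    · subst h1
      rw [Function.update_self]
      exact kit.R_conv _ _ (h.reg a i ha) (h.reg a b hb)
    · rw [Function.update_of_ne h1]
      exact h.reg a i (Finset.mem_of_mem_erase hi)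
  · intro z x hne
    rw [← I_psi_sig g ha hb hab B h.reg z x] at hne
    obtain ⟨u, hu⟩ := kit.exists_ne_of_I_ne _ hne
    have := h.supp z (sig a₀ b x u) hu
    rwa [sum_lG_sig lG ha hb hab] at this
  · have e : ∑ i ∈ S.erase b, lG (Function.update c a₀ (c a₀ + c b) i)
        = ∑ i ∈ S, lG (c i) := by
      rw [sum_split' ha hab, sum_split ha hb hab, Function.update_self, map_add]
      have : ∑ i ∈ (S.erase b).erase a₀, lG (Function.update c a₀ (c a₀ + c b) i)
          = ∑ i ∈ (S.erase b).erase a₀, lG (c i) := by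
        refine Finset.sum_congr rfl fun i hi => ?_
        rw [Function.update_of_ne (Finset.mem_erase.1 hi).1]
      rw [this]
    rw [e]; exact h.deg
  · intro z x
    -- the integrands
    set c' : ι → G := Function.update c a₀ (c a₀ + c b) with hc'
    set f : ℤ → G → ℂ := fun j u =>
      psi g S B (z + j • cZ) (fun i => sig a₀ b x u i + j • c i) with hf
    -- the shifted substitution
    have hsig : ∀ (j : ℤ) (u : G),
        sig a₀ b (fun i => x i + j • c' i) (u + j • c a₀) = fun i => sig a₀ b x u i + j • c i := by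
      intro j u
      funext i
      by_cases h1 : i = a₀
      · subst h1
        rw [sig_a hab, sig_a hab]
      · by_cases h2 : i = b
        · subst h2
          rw [sig_b, sig_b, hc', Function.update_self, smul_add]
          abel
        · rw [sig_ne h1 h2, sig_ne h1 h2, hc', Function.update_of_ne h1]
    have hFj : ∀ j : ℤ, kit.F (f j) := by
      intro j
      have := kit.F_trans _ (j • c a₀)
        (F_psi_sig (kit := kit) g ha hb hab B h.reg (z + j • cZ) (fun i => x i + j • c' i))
      have e : (fun u => psi g S B (z + j • cZ)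
            (sig a₀ b (fun i => x i + j • c' i) (u + j • c a₀))) = f j := by
        funext u; rw [hsig j u]
      rwa [e] at this
    have hIj : ∀ j : ℤ,
        psi g (S.erase b) (fun a => Function.update (B a) a₀ (kit.conv (B a a₀) (B a b)))
          (z + j • cZ) (fun i => x i + j • c' i) = kit.I (f j) := by
      intro j
      rw [← I_psi_sig g ha hb hab B h.reg (z + j • cZ) (fun i => x i + j • c' i),
        ← kit.I_trans _ (j • c a₀)
          (F_psi_sig (kit := kit) g ha hb hab B h.reg (z + j • cZ) (fun i => x i + j • c' i))]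
      congr 1
      funext u; rw [hsig j u]
    -- pointwise telescoping
    have htel : ∀ u : G, HasSum (fun j : ℤ => f j u) 0 := fun u => h.tel z (sig a₀ b x u)
    -- the finite range
    set L' : ℤ := lZ z + ∑ i ∈ S.erase b, lG (x i) with hL'
    set d : ℤ := lZ cZ + ∑ i ∈ S, lG (c i) with hd
    have hd0 : d ≠ 0 := h.deg
    set J : Finset ℤ := Bd.image (fun m => (m - L') / d) with hJ
    have hvan : ∀ j : ℤ, j ∉ J → ∀ u : G, f j u = 0 := by
      intro j hj u
      by_contra hne
      have h1 := h.supp (z + j • cZ) (fun i => sig a₀ b x u i + j • c i) hne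
      have h2 : lZ (z + j • cZ) + ∑ i ∈ S, lG (sig a₀ b x u i + j • c i) = L' + j * d := by
        have : ∑ i ∈ S, lG (sig a₀ b x u i + j • c i)
            = ∑ i ∈ S, lG (sig a₀ b x u i) + j * ∑ i ∈ S, lG (c i) := by
          rw [Finset.mul_sum, ← Finset.sum_add_distrib]
          refine Finset.sum_congr rfl fun i _ => ?_
          rw [map_add, map_zsmul, smul_eq_mul]
        rw [this, sum_lG_sig lG ha hb hab, map_add, map_zsmul, smul_eq_mul, hL', hd]
        ring
      rw [h2] at h1
      apply hj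
      rw [hJ, Finset.mem_image]
      refine ⟨L' + j * d, h1, ?_⟩
      rw [add_sub_cancel_left, Int.mul_ediv_cancel _ hd0]
    -- the sum over `J`
    have hsumJ : ∑ j ∈ J, kit.I (f j) = 0 := by
      rw [← kit.I_sum J f fun j _ => hFj j]
      have : (fun u => ∑ j ∈ J, f j u) = fun _ => 0 := by
        funext u
        have h1 : HasSum (fun j : ℤ => f j u) (∑ j ∈ J, f j u) :=
          hasSum_sum_of_ne_finset_zero fun j hj => hvan j hj u
        exact h1.unique (htel u)
      rw [this]; exact kit.I_zero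
    have hmain : HasSum (fun j : ℤ => kit.I (f j)) (∑ j ∈ J, kit.I (f j)) := by
      refine hasSum_sum_of_ne_finset_zero fun j hj => ?_
      have : f j = fun _ => 0 := by funext u; exact hvan j hj u
      rw [this]; exact kit.I_zero
    rw [hsumJ] at hmain
    have e : (fun j : ℤ => psi g (S.erase b)
          (fun a => Function.update (B a) a₀ (kit.conv (B a a₀) (B a b)))
          (z + j • cZ) (fun i => x i + j • c' i)) = fun j : ℤ => kit.I (f j) := by
      funext j; exact hIj j
    rw [e]; exact hmain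

end State

/-! ## Appendix: the equation lemmas of the definitions of this file are realised HERE -/

theorem eqns_realised_pushKit : True := by
  have _a1 := @IntKit.conv.eq_1
  have _a2 := @IntKit.convL.eq_1
  have _a3 := @IntKit.convL.eq_2
  have _a4 := @IntKit.convL.eq_def
  have _a5 := @IntKit.convL.eq_unfold
  have _b1 := @psi.eq_1
  have _b2 := @sig.eq_1
  trivial

end Fermat.Agent.LT.T3.Push

end
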