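import Fermat.Agent.LT.T3.M.Spec

/-!
# Row LT, tower T3, station T3.19 (architect helper14): THE PUSH-FORWARD OF THE CORE -- THE CUT

OFF-MAIN.  Definitions and frozen Props only (the proofs are `Push/Top.lean`).  No hole, no
opaque constant, nothing assumed.  ADDITIVE (new names only, namespace `T3.Push`).

## Why (hint of helper797, note 18148 (2); nodes `BaseC` of helper893, `BaseQC` over `ℚ`)

For the matched pairs of tower T7 the Eisenstein-killing function DOWNSTAIRS must not be an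
independent T3 function: its local factors are the `T6`-matches of the local factors upstairs.
On the coordinate groups this is the PUSH-FORWARD of the core along the norm

    N : (ℤ²)^{ι₁'} × (ℝ²)^{ι₂'} → (ℤ²)^{ι₁} × (ℝ²)^{ι₂},
    N(m, x) = ((∑_{w | v} f_w m_w)_v, (∑_{w | v} r_w x_w)_v)

(`f_w` the residue degree; `r_w = 1` for a complex place over a complex place, `r_w = 2` for the
complex place over the real place in the coordinates `log |·|`).  The push-forward of a pure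
tensor is the pure tensor of the local push-forwards:

* finite places: `A_v = D_{f_{w₀}} A'_{w₀} ⋆ ⋯ ⋆ D_{f_{w_{k-1}}} A'_{w_{k-1}}` (`convLZ`, `dilZ`;
  inert: `A_v(m) = A'_w(m / ℓ)`, split: the convolution of the `A'_w`),
* infinite places: `β_v = D_{r_{w₀}} β'_{w₀} ⋆ ⋯ ⋆ D_{r_{w_{k-1}}} β'_{w_{k-1}}` (`convLE`, `dilE`)
  up to a constant,

LEFT NESTED along an enumeration of the fibre, in the convention
`(β ⋆ γ)(y) = ∫ β(u) γ(y - u) du` of `T6.convInt` (so that the iterated convolutions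
`H305.convL305`, `T6.IsConvProd` of the local factors on the groups have these `N`-integrals).

**`PushTelC`** (THE LEAF; MATHLIB + `M/Spec.lean`): if a finite sum of pure tensors upstairs
telescopes along `c₀(e', ℓ')`, then the sum of the pushed pure tensors telescopes along
`N c₀(e', ℓ') = c₀(∑ f_w e'_w, ∑ r_w ℓ'_w)`.  (Uniform scalars `sA v`, `sβ v` are allowed: the
constants of the `N`-integrals of convolutions.)
Proof: one merge of two coordinates at a time; `∑_j ∫ Ψ(σ_x(u) + j c) du = ∫ ∑_j … = 0`, the sum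
over `j` is finite uniformly in `u` because the total degree `∑_w (m_w)₁` of a point of the
support is bounded and `∑_w f_w e'_w > 0`.

**Symmetry and regularity** (`Push/Top.lean`): the pushed factors are `IsSymFin` / `IsSymBump`,
so the pushed family is again in `SymSpanCrd`.
-/

set_option autoImplicit false

open MeasureTheory

noncomputable section

namespace Fermat.Agent.LT.T3.Push

open Fermat.Agent.LT.T3.AS Fermat.Agent.LT.T3.M

/-! ## 1. The local push-forwards -/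

/-- Convolution on `ℝ²` (Lebesgue measure), convention of `T6.convInt`:
`(β ⋆ γ)(y) = ∫ β(u) γ(y - u) du`. -/
def convE (β γ : ℝ × ℝ → ℂ) : ℝ × ℝ → ℂ :=
  fun y => ∫ u : ℝ × ℝ, β u * γ (y - u)

/-- Left nested iterated convolution on `ℝ²`: `b 0 ⋆ b 1 ⋆ ⋯ ⋆ b j`. -/
def convLE (b : ℕ → ℝ × ℝ → ℂ) : ℕ → ℝ × ℝ → ℂ
  | 0 => b 0
  | (j + 1) => convE (convLE b j) (b (j + 1))

/-- Convolution on `ℤ²`: `(A ⋆ B)(n) = ∑_m A(m) B(n - m)`. -/
def convZ (A B : ℤ × ℤ → ℂ) : ℤ × ℤ → ℂ :=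
  fun n => ∑ᶠ m : ℤ × ℤ, A m * B (n - m)

/-- Left nested iterated convolution on `ℤ²`: `b 0 ⋆ b 1 ⋆ ⋯ ⋆ b j`. -/
def convLZ (b : ℕ → ℤ × ℤ → ℂ) : ℕ → ℤ × ℤ → ℂ
  | 0 => b 0
  | (j + 1) => convZ (convLZ b j) (b (j + 1))

/-- The push-forward along `m ↦ f m` on `ℤ²`: `(D_f A)(n) = A(n / f)` if `f ∣ n`, `0` otherwise
(the Satake coefficients of the base change at an inert place of degree `f`). -/
def dilZ (f : ℕ) (A : ℤ × ℤ → ℂ) : ℤ × ℤ → ℂ :=
  fun n => if (f : ℤ) ∣ n.1 ∧ (f : ℤ) ∣ n.2 then A (n.1 / (f : ℤ), n.2 / (f : ℤ)) else 0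

/-- The push-forward along `x ↦ r x` on `ℝ²` (up to the constant `r⁻²`):
`(D_r β)(y) = β(r⁻¹ y)`. -/
def dilE (r : ℝ) (β : ℝ × ℝ → ℂ) : ℝ × ℝ → ℂ :=
  fun y => β (r⁻¹ • y)

/-! ## 2. Enumerations of the fibres -/

/-- `w i 0, …, w i (k i - 1)` enumerates the fibre of `ι' → ι` over `i`:
`(i, j) ↦ w i j` (`j < k i`) is a bijection onto `ι'`, and no fibre is empty. -/
def IsFibEnum {ι' ι : Type} (k : ι → ℕ) (w : ι → ℕ → ι') : Prop :=
  (∀ i : ι, 0 < k i) ∧
    (∀ (i i₂ : ι) (j j₂ : ℕ), j < k i → j₂ < k i₂ → w i j = w i₂ j₂ → i = i₂ ∧ j = j₂) ∧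
    ∀ i' : ι', ∃ (i : ι) (j : ℕ), j < k i ∧ w i j = i'

/-! ## 3. The leaf -/

/-- **T3.19 = PUSH-TEL (the push-forward of a telescoping sum of pure tensors telescopes;
MATHLIB + the definitions above).**  See the header. -/
def PushTelC : Prop :=
  ∀ (ι₁' ι₁ ι₂' ι₂ I : Type) [Fintype ι₁'] [Fintype ι₁] [Fintype ι₂'] [Fintype ι₂] [Fintype I]
    (k₁ : ι₁ → ℕ) (w₁ : ι₁ → ℕ → ι₁') (k₂ : ι₂ → ℕ) (w₂ : ι₂ → ℕ → ι₂')
    (fd : ι₁' → ℕ) (rd : ι₂' → ℝ) (e' : ι₁' → ℕ) (ℓ' : ι₂' → ℝ),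
    Nonempty ι₁ → IsFibEnum k₁ w₁ → IsFibEnum k₂ w₂ →
    (∀ i', 0 < fd i') → (∀ w', rd w' ≠ 0) → (∀ i', 0 < e' i') →
    ∀ (c : I → ℂ) (A' : I → ι₁' → ℤ × ℤ → ℂ) (β' : I → ι₂' → ℝ × ℝ → ℂ),
      (∀ a i', (Function.support (A' a i')).Finite) →
      (∀ a w', Continuous (β' a w') ∧ HasCompactSupport (β' a w')) →
      (∀ Δ' : Crd ι₁' ι₂',
        HasSum (fun j : ℤ => ∑ a, c a * pureCrd (A' a) (β' a) (Δ' + j • c0 e' ℓ')) 0) →
      ∀ (sA : ι₁ → ℂ) (sβ : ι₂ → ℂ) (Δ : Crd ι₁ ι₂),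
        HasSum (fun j : ℤ => ∑ a, c a *
          pureCrd
            (fun i n => sA i *
              convLZ (fun j => dilZ (fd (w₁ i j)) (A' a (w₁ i j))) (k₁ i - 1) n)
            (fun v y => sβ v *
              convLE (fun j => dilE (rd (w₂ v j)) (β' a (w₂ v j))) (k₂ v - 1) y)
            (Δ + j • c0 (fun i => ∑ j ∈ Finset.range (k₁ i), fd (w₁ i j) * e' (w₁ i j))
              (fun v => ∑ j ∈ Finset.range (k₂ v), rd (w₂ v j) * ℓ' (w₂ v j)))) 0

/-! ## Appendix: the equation lemmas of the definitions of this file are realised HERE -/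

theorem eqns_realised_pushSpec : True := by
  have _a1 := @convE.eq_1
  have _a2 := @convLE.eq_1
  have _a3 := @convLE.eq_2
  have _a4 := @convLE.eq_def
  have _a5 := @convLE.eq_unfold
  have _b1 := @convZ.eq_1
  have _b2 := @convLZ.eq_1
  have _b3 := @convLZ.eq_2
  have _b4 := @convLZ.eq_def
  have _b5 := @convLZ.eq_unfold
  have _c1 := @dilZ.eq_1
  have _c2 := @dilE.eq_1
  have _d1 := @IsFibEnum.eq_1
  have _d2 := @PushTelC.eq_1
  trivial

end Fermat.Agent.LT.T3.Push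

end
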