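import Fermat.Agent.LT.T3.Push.Iter
import Fermat.Agent.LT.T3.Push.Spec

/-!
# Row LT, tower T3, station T3.19 (helper14): the push-forward of the core -- THE TWO KITS

OFF-MAIN.  Complete proofs.  ADDITIVE (new names only, namespace `T3.Push`).

* `kitZ`: finite sums on `ℤ²` (`F = R =` finite support); `kitZ.conv = convZ`.
* `kitE`: Lebesgue integral on `ℝ²` (`F =` integrable, `R =` continuous with compact support);
  `kitE.conv = convE`.
-/

set_option autoImplicit false
set_option linter.unusedVariables false

open MeasureTheory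

noncomputable section

namespace Fermat.Agent.LT.T3.Push

/-! ## 1. `ℤ²` -/

theorem finite_support_convZ (β γ : ℤ × ℤ → ℂ) (hβ : (Function.support β).Finite)
    (hγ : (Function.support γ).Finite) :
    (Function.support fun y => ∑ᶠ u : ℤ × ℤ, β u * γ (y - u)).Finite := by
  refine ((hβ.prod hγ).image fun p : (ℤ × ℤ) × (ℤ × ℤ) => p.1 + p.2).subset ?_
  intro y hy
  rw [Function.mem_support] at hy
  have : ∃ u, β u * γ (y - u) ≠ 0 := by
    by_contra hc
    apply hy
    have : (fun u => β u * γ (y - u)) = fun _ => 0 := by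
      funext u
      by_contra hu
      exact hc ⟨u, hu⟩
    rw [this, finsum_zero]
  obtain ⟨u, hu⟩ := this
  refine ⟨(u, y - u), ⟨?_, ?_⟩, by simp⟩
  · exact fun h0 => hu (by rw [show β u = 0 from h0, zero_mul])
  · exact fun h0 => hu (by rw [show γ (y - u) = 0 from h0, mul_zero])

/-- The kit of the finite sums on `ℤ²`. -/
def kitZ : IntKit (ℤ × ℤ) where
  I := fun f => ∑ᶠ m : ℤ × ℤ, f m
  F := fun f => (Function.support f).Finite
  R := fun f => (Function.support f).Finite
  I_zero := finsum_zero
  I_add := fun f g hf hg => finsum_add_distrib hf hg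
  I_smul := fun c f _ => (mul_finsum f c).symm
  I_trans := fun f h _ => finsum_comp_equiv (Equiv.addRight h) (f := f)
  F_zero := by simp
  F_add := fun f g hf hg => (hf.union hg).subset (Function.support_add f g)
  F_smul := fun c f hf => hf.subset (by
    intro u hu
    rw [Function.mem_support] at hu ⊢
    exact fun h0 => hu (by rw [h0, mul_zero]))
  F_trans := fun f h hf => by
    have : (Function.support fun u => f (u + h)) = (fun u => u + h) ⁻¹' Function.support f := rfl
    rw [this]
    exact hf.preimage (fun a _ b _ hab => add_right_cancel hab)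
  F_conv := fun β γ hβ _ y => hβ.subset (by
    intro u hu
    rw [Function.mem_support] at hu ⊢
    exact fun h0 => hu (by rw [h0, zero_mul]))
  R_conv := fun β γ hβ hγ => finite_support_convZ β γ hβ hγ

theorem kitZ_conv (A B : ℤ × ℤ → ℂ) : kitZ.conv A B = convZ A B := rfl

theorem kitZ_convL (b : ℕ → ℤ × ℤ → ℂ) (n : ℕ) : kitZ.convL b n = convLZ b n := by
  induction n with
  | zero => rfl
  | succ n ih =>
    show kitZ.conv (kitZ.convL b n) (b (n + 1)) = convZ (convLZ b n) (b (n + 1))
    rw [ih, kitZ_conv]

/-! ## 2. `ℝ²` -/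

theorem convE_eq_convolution (β γ : ℝ × ℝ → ℂ) :
    (fun y => ∫ u : ℝ × ℝ, β u * γ (y - u))
      = convolution β γ (ContinuousLinearMap.mul ℝ ℂ) volume := by
  funext y
  rw [convolution_def]
  rfl

theorem cont_convE (β γ : ℝ × ℝ → ℂ) (hβ : Continuous β ∧ HasCompactSupport β)
    (hγ : Continuous γ ∧ HasCompactSupport γ) :
    Continuous (fun y => ∫ u : ℝ × ℝ, β u * γ (y - u)) ∧
      HasCompactSupport (fun y => ∫ u : ℝ × ℝ, β u * γ (y - u)) := by
  rw [convE_eq_convolution]
  exact ⟨hγ.2.continuous_convolution_right _ hβ.1.locallyIntegrable hγ.1,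
    hβ.2.convolution _ hγ.2⟩

theorem integrable_convE (β γ : ℝ × ℝ → ℂ) (hβ : Continuous β ∧ HasCompactSupport β)
    (hγ : Continuous γ) (y : ℝ × ℝ) : Integrable (fun u => β u * γ (y - u)) := by
  have hc : Continuous fun u => β u * γ (y - u) :=
    hβ.1.mul (hγ.comp (continuous_const.sub continuous_id))
  have hs : HasCompactSupport fun u => β u * γ (y - u) := hβ.2.mul_right
  exact hc.integrable_of_hasCompactSupport hs

/-- The kit of the Lebesgue integral on `ℝ²`. -/
def kitE : IntKit (ℝ × ℝ) where
  I := fun f => ∫ u : ℝ × ℝ, f u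
  F := fun f => Integrable f (volume : Measure (ℝ × ℝ))
  R := fun f => Continuous f ∧ HasCompactSupport f
  I_zero := integral_zero _ _
  I_add := fun f g hf hg => integral_add hf hg
  I_smul := fun c f _ => integral_const_mul c f
  I_trans := fun f h _ => integral_add_right_eq_self f h
  F_zero := integrable_zero _ _ _
  F_add := fun f g hf hg => hf.add hg
  F_smul := fun c f hf => hf.const_mul c
  F_trans := fun f h hf => hf.comp_add_right h
  F_conv := fun β γ hβ hγ y => integrable_convE β γ hβ hγ.1 y
  R_conv := fun β γ hβ hγ => cont_convE β γ hβ hγ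

theorem kitE_conv (β γ : ℝ × ℝ → ℂ) : kitE.conv β γ = convE β γ := rfl

theorem kitE_convL (b : ℕ → ℝ × ℝ → ℂ) (n : ℕ) : kitE.convL b n = convLE b n := by
  induction n with
  | zero => rfl
  | succ n ih =>
    show kitE.conv (kitE.convL b n) (b (n + 1)) = convE (convLE b n) (b (n + 1))
    rw [ih, kitE_conv]

/-! ## Appendix: the equation lemmas of the definitions of this file are realised HERE -/

theorem eqns_realised_pushKits : True := by
  have _a1 := @kitZ.eq_1
  have _a2 := @kitE.eq_1
  trivial

end Fermat.Agent.LT.T3.Push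

end
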