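import Fermat.Agent.LT.T3.Push.Dil

/-!
# Row LT, tower T3, station T3.19 (helper14): the push-forward of the core -- THE INFINITE
# PLACES: the pushed factors are symmetric bumps

OFF-MAIN.  Complete proofs, nothing assumed.  ADDITIVE (new names only, namespace `T3.Push`).

`IsSymBump` (smooth, compact support, symmetric) is stable under `dilE r` (`r ≠ 0`), `convE`,
`convLE` and under multiplication by a constant; `∫ convE β γ = (∫ β) (∫ γ)`,
`∫ convLE b j = ∏_{i ≤ j} ∫ b i`.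
-/

set_option autoImplicit false

open MeasureTheory

noncomputable section

namespace Fermat.Agent.LT.T3.Push

open Fermat.Agent.LT.T3.AS

theorem isSymBump_const_mul (s : ℂ) {β : ℝ × ℝ → ℂ} (hβ : IsSymBump β) :
    IsSymBump (fun y => s * β y) := by
  refine ⟨contDiff_const.mul hβ.1, ?_, fun x y => ?_⟩
  · exact hβ.2.1.mul_left
  · show s * β (x, y) = s * β (y, x)
    rw [hβ.2.2]

theorem isSymBump_dilE (r : ℝ) (hr : r ≠ 0) {β : ℝ × ℝ → ℂ} (hβ : IsSymBump β) :
    IsSymBump (dilE r β) := by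
  refine ⟨?_, (cont_dilE r hr β ⟨hβ.1.continuous, hβ.2.1⟩).2, fun x y => ?_⟩
  · exact hβ.1.comp (contDiff_const_smul r⁻¹)
  · show β (r⁻¹ • (x, y)) = β (r⁻¹ • (y, x))
    rw [Prod.smul_mk, Prod.smul_mk, hβ.2.2]

theorem convE_swap {β γ : ℝ × ℝ → ℂ} (hβ : ∀ x y : ℝ, β (x, y) = β (y, x))
    (hγ : ∀ x y : ℝ, γ (x, y) = γ (y, x)) (x y : ℝ) :
    convE β γ (x, y) = convE β γ (y, x) := by
  unfold convE
  have h := (Measure.measurePreserving_swap (μ := (volume : Measure ℝ))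
    (ν := (volume : Measure ℝ))).integral_comp
      (MeasurableEquiv.prodComm : ℝ × ℝ ≃ᵐ ℝ × ℝ).measurableEmbedding
      (fun u : ℝ × ℝ => β u * γ ((y, x) - u))
  have e : (fun u : ℝ × ℝ => β u * γ ((x, y) - u))
      = fun u : ℝ × ℝ => (fun u : ℝ × ℝ => β u * γ ((y, x) - u)) (Prod.swap u) := by
    funext u
    obtain ⟨u₁, u₂⟩ := u
    show β (u₁, u₂) * γ (x - u₁, y - u₂) = β (u₂, u₁) * γ (y - u₂, x - u₁)
    rw [hβ u₁ u₂, hγ (x - u₁) (y - u₂)]
  rw [e]
  exact h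

theorem isSymBump_convE {β γ : ℝ × ℝ → ℂ} (hβ : IsSymBump β) (hγ : IsSymBump γ) :
    IsSymBump (convE β γ) := by
  have hc := cont_convE β γ ⟨hβ.1.continuous, hβ.2.1⟩ ⟨hγ.1.continuous, hγ.2.1⟩
  refine ⟨?_, hc.2, convE_swap hβ.2.2 hγ.2.2⟩
  have e : convE β γ = convolution β γ (ContinuousLinearMap.mul ℝ ℂ) volume :=
    convE_eq_convolution β γ
  rw [e]
  exact hγ.2.1.contDiff_convolution_right _ hβ.1.continuous.locallyIntegrable hγ.1

theorem isSymBump_convLE {b : ℕ → ℝ × ℝ → ℂ} (hb : ∀ j, IsSymBump (b j)) (j : ℕ) :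
    IsSymBump (convLE b j) := by
  induction j with
  | zero => exact hb 0
  | succ j ih => exact isSymBump_convE ih (hb (j + 1))

theorem integral_convE {β γ : ℝ × ℝ → ℂ} (hβ : Continuous β ∧ HasCompactSupport β)
    (hγ : Continuous γ ∧ HasCompactSupport γ) :
    ∫ y : ℝ × ℝ, convE β γ y = (∫ y : ℝ × ℝ, β y) * ∫ y : ℝ × ℝ, γ y := by
  have e : convE β γ = convolution β γ (ContinuousLinearMap.mul ℝ ℂ) volume :=
    convE_eq_convolution β γ
  rw [e, integral_convolution (ContinuousLinearMap.mul ℝ ℂ)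
    (hβ.1.integrable_of_hasCompactSupport hβ.2) (hγ.1.integrable_of_hasCompactSupport hγ.2)]
  rfl

theorem cont_convLE {b : ℕ → ℝ × ℝ → ℂ} (hb : ∀ j, Continuous (b j) ∧ HasCompactSupport (b j))
    (j : ℕ) : Continuous (convLE b j) ∧ HasCompactSupport (convLE b j) := by
  induction j with
  | zero => exact hb 0
  | succ j ih => exact cont_convE _ _ ih (hb (j + 1))

theorem integral_convLE {b : ℕ → ℝ × ℝ → ℂ}
    (hb : ∀ j, Continuous (b j) ∧ HasCompactSupport (b j)) (j : ℕ) :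
    ∫ y : ℝ × ℝ, convLE b j y = ∏ i ∈ Finset.range (j + 1), ∫ y : ℝ × ℝ, b i y := by
  induction j with
  | zero => rw [Finset.prod_range_one]; rfl
  | succ j ih =>
    show ∫ y : ℝ × ℝ, convE (convLE b j) (b (j + 1)) y = _
    rw [integral_convE (cont_convLE hb j) (hb (j + 1)), ih, Finset.prod_range_succ _ (j + 1)]

end Fermat.Agent.LT.T3.Push

end
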